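import Mathlib
import Fermat.Prelude.Def_FLTPrelim_Ramification

/-!
# S05: inertia and valuation facts

NOTE: `inertia_valuation_eq` needs `L / K` algebraic (it is false for transcendental
extensions: a rank two valuation and `s ↦ s * t`), hence the `Algebra.IsAlgebraic` hypothesis.
-/

set_option autoImplicit false

namespace Fermat.Agent.S05

open scoped Pointwise

section Inertia

variable {K L : Type*} [Field K] [Field L] [Algebra K L]

theorem inertia_mem_decomposition (A : ValuationSubring L) {σ : L ≃ₐ[K] L}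
    (hσ : σ ∈ A.inertiaSubgroupIn K) : σ ∈ A.decompositionSubgroup K := by
  obtain ⟨τ, _, rfl⟩ := hσ
  exact τ.2

theorem decomposition_mem_iff (A : ValuationSubring L) {σ : L ≃ₐ[K] L}
    (hσ : σ ∈ A.decompositionSubgroup K) (x : L) : σ x ∈ A ↔ x ∈ A := by
  have h : σ • A = A := hσ
  constructor
  · intro hx
    have h2 : σ x ∈ σ • A := by rw [h]; exact hx
    rw [ValuationSubring.mem_pointwise_smul_iff_inv_smul_mem] at h2
    simpa [AlgEquiv.smul_def] using h2
  · intro hx
    have := ValuationSubring.smul_mem_pointwise_smul σ x A hx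
    rw [h] at this
    simpa [AlgEquiv.smul_def] using this

theorem decomposition_valuation_lt_one_iff (A : ValuationSubring L) {σ : L ≃ₐ[K] L}
    (hσ : σ ∈ A.decompositionSubgroup K) (x : L) :
    A.valuation (σ x) < 1 ↔ A.valuation x < 1 := by
  rw [← ValuationSubring.mem_nonunits_iff, ← ValuationSubring.mem_nonunits_iff,
    ValuationSubring.mem_nonunits_iff_or, ValuationSubring.mem_nonunits_iff_or, ← map_inv₀,
    decomposition_mem_iff A hσ, map_eq_zero_iff σ σ.injective]

theorem exists_pow_apply_eq [Algebra.IsAlgebraic K L] (σ : L ≃ₐ[K] L) (x : L) :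
    ∃ n : ℕ, 0 < n ∧ (σ ^ n) x = x := by
  classical
  have hx : IsIntegral K x := (Algebra.IsAlgebraic.isAlgebraic x).isIntegral
  have hfin : ((minpoly K x).rootSet L).Finite := Polynomial.rootSet_finite _ _
  have hmem : ∀ n : ℕ, (σ ^ n) x ∈ (minpoly K x).rootSet L := by
    intro n
    rw [Polynomial.mem_rootSet]
    refine ⟨minpoly.ne_zero hx, ?_⟩
    have := Polynomial.aeval_algHom_apply ((σ ^ n : L ≃ₐ[K] L) : L →ₐ[K] L) x (minpoly K x)
    rw [minpoly.aeval, map_zero] at this
    exact this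
  have : Finite ((minpoly K x).rootSet L) := hfin
  obtain ⟨a, b, hab, h⟩ := Finite.exists_ne_map_eq_of_infinite
    (fun n : ℕ => (⟨(σ ^ n) x, hmem n⟩ : (minpoly K x).rootSet L))
  have h' : (σ ^ a) x = (σ ^ b) x := congrArg Subtype.val h
  have key : ∀ a b : ℕ, a < b → (σ ^ a) x = (σ ^ b) x → ∃ n : ℕ, 0 < n ∧ (σ ^ n) x = x := by
    intro a b hlt h
    refine ⟨b - a, by omega, ?_⟩
    have hb : b = a + (b - a) := by omega
    rw [hb, pow_add, AlgEquiv.mul_apply] at h
    exact ((σ ^ a).injective h).symm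
  rcases lt_or_gt_of_ne hab with hlt | hlt
  · exact key a b hlt h'
  · exact key b a hlt h'.symm

theorem decomposition_valuation_pow_div_lt_one (A : ValuationSubring L) {σ : L ≃ₐ[K] L}
    (hσ : σ ∈ A.decompositionSubgroup K) {x : L} (hx : x ≠ 0)
    (h : A.valuation (σ x / x) < 1) (n : ℕ) : A.valuation ((σ ^ (n + 1)) x / x) < 1 := by
  induction n with
  | zero => simpa using h
  | succ n ih =>
    have h1 : (σ ^ (n + 1 + 1)) x / x = σ ((σ ^ (n + 1)) x / x) * (σ x / x) := by
      have hσx : σ x ≠ 0 := (map_ne_zero_iff σ σ.injective).mpr hx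
      rw [pow_succ' σ (n + 1), AlgEquiv.mul_apply, map_div₀]
      field_simp
    rw [h1, map_mul]
    exact mul_lt_one_of_nonneg_of_lt_one_left zero_le
      ((decomposition_valuation_lt_one_iff A hσ _).mpr ih) h.le

theorem decomposition_valuation_div_not_lt_one [Algebra.IsAlgebraic K L]
    (A : ValuationSubring L) {σ : L ≃ₐ[K] L}
    (hσ : σ ∈ A.decompositionSubgroup K) {x : L} (hx : x ≠ 0) :
    ¬ A.valuation (σ x / x) < 1 := by
  intro h
  obtain ⟨n, hn, hfix⟩ := exists_pow_apply_eq σ x
  obtain ⟨m, rfl⟩ : ∃ m, n = m + 1 := ⟨n - 1, by omega⟩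
  have := decomposition_valuation_pow_div_lt_one A hσ hx h m
  rw [hfix, div_self hx, map_one] at this
  exact lt_irrefl _ this

/-- Elements of the decomposition group preserve the valuation (algebraic extensions). -/
theorem decomposition_valuation_eq [Algebra.IsAlgebraic K L]
    (A : ValuationSubring L) {σ : L ≃ₐ[K] L}
    (hσ : σ ∈ A.decompositionSubgroup K) (x : L) : A.valuation (σ x) = A.valuation x := by
  rcases eq_or_ne x 0 with rfl | hx
  · simp
  have hσx : σ x ≠ 0 := (map_ne_zero_iff σ σ.injective).mpr hx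
  have hvx : A.valuation x ≠ 0 := (Valuation.ne_zero_iff _).mpr hx
  have hvσx : A.valuation (σ x) ≠ 0 := (Valuation.ne_zero_iff _).mpr hσx
  have h1 := decomposition_valuation_div_not_lt_one A hσ hx
  have hσ' : σ⁻¹ ∈ A.decompositionSubgroup K := inv_mem hσ
  have h2 := decomposition_valuation_div_not_lt_one A hσ' hσx
  have h3 : σ⁻¹ (σ x) = x := by
    change σ.symm (σ x) = x
    simp
  rw [h3] at h2
  rw [map_div₀, div_lt_one₀ (zero_lt_iff.mpr hvx), not_lt] at h1
  rw [map_div₀, div_lt_one₀ (zero_lt_iff.mpr hvσx), not_lt] at h2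
  exact le_antisymm h2 h1

theorem inertia_valuation_eq [Algebra.IsAlgebraic K L] (A : ValuationSubring L) {σ : L ≃ₐ[K] L}
    (hσ : σ ∈ A.inertiaSubgroupIn K) (x : L) : A.valuation (σ x) = A.valuation x :=
  decomposition_valuation_eq A (inertia_mem_decomposition A hσ) x

theorem inertia_valuation_sub_lt_one (A : ValuationSubring L) {σ : L ≃ₐ[K] L}
    (hσ : σ ∈ A.inertiaSubgroupIn K) {x : L} (hx : A.valuation x ≤ 1) :
    A.valuation (σ x - x) < 1 := by
  obtain ⟨τ, hτ, rfl⟩ := hσ
  have hxA : x ∈ A := (A.valuation_le_one_iff x).mp hx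
  have hτ' : MulSemiringAction.toRingAut (A.decompositionSubgroup K)
      (IsLocalRing.ResidueField A) τ = 1 := hτ
  have h1 : τ • IsLocalRing.residue A ⟨x, hxA⟩ = IsLocalRing.residue A ⟨x, hxA⟩ := by
    have := congrArg (fun f : RingAut (IsLocalRing.ResidueField A) =>
      f (IsLocalRing.residue A ⟨x, hxA⟩)) hτ'
    simpa using this
  rw [← IsLocalRing.ResidueField.residue_smul] at h1
  have h2 : (τ • (⟨x, hxA⟩ : A)) - ⟨x, hxA⟩ ∈ IsLocalRing.maximalIdeal A := by
    rw [← IsLocalRing.residue_eq_zero_iff, map_sub, h1, sub_self]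
  rw [ValuationSubring.valuation_lt_one_iff] at h2
  exact h2

end Inertia

section IntCast

variable {L : Type*} [Field L]

theorem valuation_intCast_le_one (A : ValuationSubring L) (n : ℤ) : A.valuation (n : L) ≤ 1 :=
  (A.valuation_le_one_iff _).mpr (intCast_mem A n)

theorem valuation_intCast_lt_one (A : ValuationSubring L) {q : ℕ}
    (hA : A.LiesOverPrime q) {n : ℤ} (hn : (q : ℤ) ∣ n) : A.valuation (n : L) < 1 := by
  obtain ⟨m, rfl⟩ := hn
  have hq : A.valuation (q : L) < 1 := A.mem_nonunits_iff.mp hA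
  push_cast
  rw [map_mul]
  exact mul_lt_one_of_nonneg_of_lt_one_left zero_le hq (valuation_intCast_le_one A m)

theorem valuation_intCast_eq_one (A : ValuationSubring L) {q : ℕ} (hq : q.Prime)
    (hA : A.LiesOverPrime q) {n : ℤ} (hn : ¬ (q : ℤ) ∣ n) : A.valuation (n : L) = 1 := by
  have hcop : IsCoprime (q : ℤ) n :=
    ((Nat.prime_iff_prime_int.mp hq).coprime_iff_not_dvd).mpr hn
  obtain ⟨a, b, hab⟩ := hcop
  have hab' : (a : L) * (q : L) + (b : L) * (n : L) = 1 := by exact_mod_cast congrArg (Int.cast : ℤ → L) hab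
  by_contra hne
  have hlt : A.valuation (n : L) < 1 := lt_of_le_of_ne (valuation_intCast_le_one A n) hne
  have hq' : A.valuation (q : L) < 1 := A.mem_nonunits_iff.mp hA
  have h1 : A.valuation ((a : L) * (q : L)) < 1 := by
    rw [map_mul, mul_comm]
    exact mul_lt_one_of_nonneg_of_lt_one_left zero_le hq' (valuation_intCast_le_one A a)
  have h2 : A.valuation ((b : L) * (n : L)) < 1 := by
    rw [map_mul, mul_comm]
    exact mul_lt_one_of_nonneg_of_lt_one_left zero_le hlt (valuation_intCast_le_one A b)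
  have h3 := Valuation.map_add_lt _ h1 h2
  rw [hab', map_one] at h3
  exact lt_irrefl _ h3

end IntCast

end Fermat.Agent.S05
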