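import Mathlib

/-!
# S05: formulas involving only `x`-coordinates on a Weierstrass curve

For affine points `P`, `Q` with different `x`-coordinates we compute the sum and the product of
`x (P + Q)` and `x (P - Q)`, and we give the duplication formula.
-/

namespace Fermat.Agent.S05.XOnly

open WeierstrassCurve WeierstrassCurve.Affine

variable {K : Type*} [Field K] {W : Affine K}

/-- the `x`-coordinate of a point (junk value `0` at the origin) -/
def xc : W.Point → K
  | .zero => 0
  | .some x _ _ => x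

/-- the `y`-coordinate of a point (junk value `0` at the origin) -/
def yc : W.Point → K
  | .zero => 0
  | .some _ y _ => y

@[simp] lemma xc_some {x y : K} (h : W.Nonsingular x y) : xc (Point.some x y h) = x := rfl
@[simp] lemma yc_some {x y : K} (h : W.Nonsingular x y) : yc (Point.some x y h) = y := rfl
@[simp] lemma xc_zero : xc (0 : W.Point) = 0 := rfl
@[simp] lemma yc_zero : yc (0 : W.Point) = 0 := rfl

lemma xc_neg (P : W.Point) : xc (-P) = xc P := by
  cases P <;> rfl

lemma yc_neg {P : W.Point} (hP : P ≠ 0) : yc (-P) = -yc P - W.a₁ * xc P - W.a₃ := by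
  cases P with
  | zero => exact absurd rfl hP
  | some x y h => rfl

lemma equation_xc_yc {P : W.Point} (hP : P ≠ 0) : W.Equation (xc P) (yc P) := by
  cases P with
  | zero => exact absurd rfl hP
  | some x y h => exact h.1

lemma ext_xc_yc {P Q : W.Point} (hP : P ≠ 0) (hQ : Q ≠ 0) (hx : xc P = xc Q) (hy : yc P = yc Q) :
    P = Q := by
  cases P with
  | zero => exact absurd rfl hP
  | some x y h =>
    cases Q with
    | zero => exact absurd rfl hQ
    | some x' y' h' =>
      simp only [xc_some, yc_some] at hx hy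
      subst hx hy
      rfl

lemma eq_or_eq_neg_of_xc_eq {P Q : W.Point} (hP : P ≠ 0) (hQ : Q ≠ 0) (hx : xc P = xc Q) :
    P = Q ∨ P = -Q := by
  cases P with
  | zero => exact absurd rfl hP
  | some x y h =>
    cases Q with
    | zero => exact absurd rfl hQ
    | some x' y' h' => exact Point.X_eq_iff.mp hx

/-- `(2 y + a₁ x + a₃)² = 4 x³ + b₂ x² + 2 b₄ x + b₆`. -/
lemma eta_sq {P : W.Point} (hP : P ≠ 0) :
    (2 * yc P + W.a₁ * xc P + W.a₃) ^ 2 =
      4 * xc P ^ 3 + W.b₂ * xc P ^ 2 + 2 * W.b₄ * xc P + W.b₆ := by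
  have h := (W.equation_iff _ _).mp (equation_xc_yc hP)
  simp only [WeierstrassCurve.b₂, WeierstrassCurve.b₄, WeierstrassCurve.b₆]
  linear_combination 4 * h

variable [DecidableEq K]

lemma add_ne_zero_of_xc_ne {P Q : W.Point} (hx : xc P ≠ xc Q) : P + Q ≠ 0 := by
  intro h
  apply hx
  rw [eq_neg_of_add_eq_zero_left h, xc_neg]

lemma sub_ne_zero_of_xc_ne {P Q : W.Point} (hx : xc P ≠ xc Q) : P - Q ≠ 0 := by
  intro h
  apply hx
  rw [sub_eq_zero.mp h]

/-- The sum formula. -/
theorem xc_add_add_xc_sub {P Q : W.Point} (hP : P ≠ 0) (hQ : Q ≠ 0) (hx : xc P ≠ xc Q) :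
    (xc (P + Q) + xc (P - Q)) * (xc P - xc Q) ^ 2 =
      2 * (xc P + xc Q) * (xc P * xc Q) + W.b₂ * (xc P * xc Q) + W.b₄ * (xc P + xc Q) + W.b₆ := by
  cases P with
  | zero => exact absurd rfl hP
  | some x₁ y₁ h₁ =>
    cases Q with
    | zero => exact absurd rfl hQ
    | some x₂ y₂ h₂ =>
      simp only [xc_some] at hx
      rw [sub_eq_add_neg, Point.neg_some, Point.add_of_X_ne hx, Point.add_of_X_ne hx]
      simp only [xc_some, Affine.addX, Affine.slope_of_X_ne hx, Affine.negY]
      have e₁ := (W.equation_iff _ _).mp h₁.1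
      have e₂ := (W.equation_iff _ _).mp h₂.1
      have hd : x₁ - x₂ ≠ 0 := sub_ne_zero.mpr hx
      simp only [WeierstrassCurve.b₂, WeierstrassCurve.b₄, WeierstrassCurve.b₆]
      field_simp
      linear_combination (2 : K) * e₁ + 2 * e₂

/-- The product formula. -/
theorem xc_add_mul_xc_sub {P Q : W.Point} (hP : P ≠ 0) (hQ : Q ≠ 0) (hx : xc P ≠ xc Q) :
    xc (P + Q) * xc (P - Q) * (xc P - xc Q) ^ 2 =
      (xc P * xc Q) ^ 2 - W.b₄ * (xc P * xc Q) - W.b₆ * (xc P + xc Q) - W.b₈ := by
  cases P with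
  | zero => exact absurd rfl hP
  | some x₁ y₁ h₁ =>
    cases Q with
    | zero => exact absurd rfl hQ
    | some x₂ y₂ h₂ =>
      simp only [xc_some] at hx
      rw [sub_eq_add_neg, Point.neg_some, Point.add_of_X_ne hx, Point.add_of_X_ne hx]
      simp only [xc_some, Affine.addX, Affine.slope_of_X_ne hx, Affine.negY]
      have e₁ := (W.equation_iff _ _).mp h₁.1
      have e₂ := (W.equation_iff _ _).mp h₂.1
      have hd : x₁ - x₂ ≠ 0 := sub_ne_zero.mpr hx
      simp only [WeierstrassCurve.b₄, WeierstrassCurve.b₆, WeierstrassCurve.b₈]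
      field_simp
      grind

lemma two_nsmul_eq_zero_iff {P : W.Point} (hP : P ≠ 0) :
    2 • P = 0 ↔ 2 * yc P + W.a₁ * xc P + W.a₃ = 0 := by
  cases P with
  | zero => exact absurd rfl hP
  | some x y h =>
    rw [two_nsmul, add_eq_zero_iff_eq_neg, Point.neg_some, Point.some.injEq]
    simp only [xc_some, yc_some, Affine.negY, true_and]
    constructor
    · intro e
      linear_combination e
    · intro e
      linear_combination e

/-- The duplication formula. -/
theorem xc_two_nsmul {P : W.Point} (hP : P ≠ 0) (h2 : 2 • P ≠ 0) :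
    xc (2 • P) * (4 * xc P ^ 3 + W.b₂ * xc P ^ 2 + 2 * W.b₄ * xc P + W.b₆) =
      xc P ^ 4 - W.b₄ * xc P ^ 2 - 2 * W.b₆ * xc P - W.b₈ := by
  have hη := (two_nsmul_eq_zero_iff hP).not.mp h2
  rw [← eta_sq hP]
  cases P with
  | zero => exact absurd rfl hP
  | some x y h =>
    simp only [xc_some, yc_some] at hη
    have hy : y ≠ W.negY x y := by
      intro e
      apply hη
      simp only [Affine.negY] at e
      linear_combination e
    rw [two_nsmul, Point.add_self_of_Y_ne hy]
    simp only [xc_some, yc_some, Affine.addX, Affine.slope_of_Y_ne rfl hy, Affine.negY]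
    have e₁ := (W.equation_iff _ _).mp h.1
    have hd : y - (-y - W.a₁ * x - W.a₃) = 2 * y + W.a₁ * x + W.a₃ := by ring
    rw [hd]
    simp only [WeierstrassCurve.b₄, WeierstrassCurve.b₆, WeierstrassCurve.b₈]
    generalize hd' : 2 * y + W.a₁ * x + W.a₃ = d at hη ⊢
    field_simp
    subst hd'
    grind

end Fermat.Agent.S05.XOnly
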