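import Mathlib

/-!
# S05: the abstract "component" computation

Pure valuation theory in a field: no elliptic curve appears here.
`Q μ = Γ₀ˣ / ⟨μ²⟩`, `cl x` the class of `v x`.
-/

namespace Fermat.Agent.S05


variable {K : Type*} [Field K] {Γ₀ : Type*} [LinearOrderedCommGroupWithZero Γ₀]

/-- The value group modulo `μ²`. -/
abbrev Q (μ : Γ₀ˣ) : Type _ := Γ₀ˣ ⧸ Subgroup.zpowers (μ ^ 2)

open Classical in
/-- The class of `v x` in `Q μ` (junk value `1` at `x = 0`). -/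
noncomputable def cl (v : Valuation K Γ₀) (μ : Γ₀ˣ) (x : K) : Q μ :=
  if h : x = 0 then 1 else ((Units.mk0 (v x) (v.ne_zero_iff.mpr h) : Γ₀ˣ) : Q μ)

variable (v : Valuation K Γ₀) (μ : Γ₀ˣ)

theorem cl_of_ne {x : K} (h : x ≠ 0) :
    cl v μ x = ((Units.mk0 (v x) (v.ne_zero_iff.mpr h) : Γ₀ˣ) : Q μ) := by
  rw [cl, dif_neg h]

theorem cl_mul {x y : K} (hx : x ≠ 0) (hy : y ≠ 0) : cl v μ (x * y) = cl v μ x * cl v μ y := by
  rw [cl_of_ne v μ hx, cl_of_ne v μ hy, cl_of_ne v μ (mul_ne_zero hx hy), ← QuotientGroup.mk_mul]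
  congr 1
  ext
  simp

theorem cl_congr {x y : K} (hx : x ≠ 0) (h : v x = v y) : cl v μ x = cl v μ y := by
  have hy : y ≠ 0 := v.ne_zero_iff.mp (h ▸ v.ne_zero_iff.mpr hx)
  rw [cl_of_ne v μ hx, cl_of_ne v μ hy]
  congr 1
  ext
  simpa using h

theorem cl_eq_one {x : K} (h : v x = 1) : cl v μ x = 1 := by
  have hx : x ≠ 0 := v.ne_zero_iff.mp (by rw [h]; exact one_ne_zero)
  rw [cl_of_ne v μ hx]
  have : (Units.mk0 (v x) (v.ne_zero_iff.mpr hx) : Γ₀ˣ) = 1 := by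
    ext
    simpa using h
  rw [this]
  rfl

theorem cl_mul_self {x : K} (h : v x = μ) : cl v μ x * cl v μ x = 1 := by
  have hx : x ≠ 0 := v.ne_zero_iff.mp (by rw [h]; exact μ.ne_zero)
  rw [cl_of_ne v μ hx, ← QuotientGroup.mk_mul]
  have : (Units.mk0 (v x) (v.ne_zero_iff.mpr hx) : Γ₀ˣ) = μ := by
    ext
    simpa using h
  rw [this, ← pow_two]
  exact (QuotientGroup.eq_one_iff _).mpr (Subgroup.mem_zpowers _)

theorem cl_inv_eq {x : K} (h : v x = μ) : (cl v μ x)⁻¹ = cl v μ x :=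
  inv_eq_of_mul_eq_one_left (cl_mul_self v μ h)

/-- if `cl x ^ p = 1` then `v x ^ p` is an even power of `μ` -/
theorem exists_zpow_of_cl_pow_eq_one {x : K} (hx : x ≠ 0) {p : ℕ} (h : cl v μ x ^ p = 1) :
    ∃ k : ℤ, v x ^ p = (μ : Γ₀) ^ (2 * k) := by
  rw [cl_of_ne v μ hx, ← QuotientGroup.mk_pow, QuotientGroup.eq_one_iff,
    Subgroup.mem_zpowers_iff] at h
  obtain ⟨k, hk⟩ := h
  refine ⟨k, ?_⟩
  have := congrArg (fun u : Γ₀ˣ => (u : Γ₀)) hk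
  simp only [Units.val_pow_eq_pow_val, Units.val_mk0, Units.val_zpow_eq_zpow_val] at this
  rw [← this, zpow_mul, zpow_ofNat]


/-- The characterising properties of the component class `c` of a point with coordinate `X`
and `η = Y / X`. -/
structure IsC (s X η : K) (c : Q μ) : Prop where
  of_one : v X = 1 → c = 1
  of_mu : v X = μ → c = cl v μ X
  of_pos : v (η - s) < 1 → c = cl v μ X
  of_neg : v (η + s) < 1 → c = (cl v μ X)⁻¹

variable {v μ}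

theorem val_sub_or_add_lt_one {a s x : K} (hs : s ^ 2 = a) (h : v (x ^ 2 - a) < 1) :
    v (x - s) < 1 ∨ v (x + s) < 1 := by
  by_contra hcon
  rw [not_or, not_lt, not_lt] at hcon
  have : x ^ 2 - a = (x - s) * (x + s) := by rw [← hs]; ring
  rw [this, map_mul] at h
  exact absurd h (not_lt.mpr (one_le_mul_of_one_le_of_one_le hcon.1 hcon.2))

theorem val_mul_lt_one_left {x y : K} (hx : v x < 1) (hy : v y ≤ 1) : v (x * y) < 1 := by
  rw [map_mul]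
  exact mul_lt_one_of_lt_of_le hx hy

theorem val_mul_lt_one_right {x y : K} (hx : v x ≤ 1) (hy : v y < 1) : v (x * y) < 1 := by
  rw [mul_comm]
  exact val_mul_lt_one_left hy hx

section Cases

variable {a b s l κ₁ κ₂ κ₃ : K} {c₁ c₂ c₃ : Q μ}

/-- Case A: no `κ` is a unit. -/
theorem triple_caseA (hs : s ^ 2 = a) (hvs : v s = 1) (h2 : v (2 : K) = 1) (hμ : v b = μ)
    (h10 : κ₁ ≠ 0) (h20 : κ₂ ≠ 0) (h30 : κ₃ ≠ 0)
    (hE1 : κ₂ * κ₃ + κ₁ * κ₃ + κ₁ * κ₂ = l ^ 2 - a)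
    (hb : b = κ₁ * κ₂ * κ₃ * (κ₁ + κ₂ + κ₃ + 2 * l))
    (H1 : IsC v μ s (κ₂ * κ₃) (l + κ₁) c₁) (H2 : IsC v μ s (κ₁ * κ₃) (l + κ₂) c₂)
    (H3 : IsC v μ s (κ₁ * κ₂) (l + κ₃) c₃)
    (k1 : v κ₁ < 1) (k2 : v κ₂ < 1) (k3 : v κ₃ < 1) : c₁ * c₂ * c₃ = 1 := by
  have hla : v (l ^ 2 - a) < 1 := by
    rw [← hE1]
    exact v.map_add_lt (v.map_add_lt (val_mul_lt_one_left k2 k3.le) (val_mul_lt_one_left k1 k3.le))
      (val_mul_lt_one_left k1 k2.le)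
  have hpm := val_sub_or_add_lt_one hs hla
  have hvl : v l = 1 := by
    rcases hpm with h | h
    · have : l = (l - s) + s := by ring
      rw [this, v.map_add_eq_of_lt_right (by rwa [hvs]), hvs]
    · have : l = (l + s) - s := by ring
      rw [this, v.map_sub_eq_of_lt_right (by rwa [hvs]), hvs]
  have hw : v (κ₁ + κ₂ + κ₃ + 2 * l) = 1 := by
    have h2l : v (2 * l) = 1 := by rw [map_mul, h2, hvl, one_mul]
    rw [v.map_add_eq_of_lt_right (by rw [h2l]; exact v.map_add_lt (v.map_add_lt k1 k2) k3), h2l]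
  have hprod : v (κ₁ * κ₂ * κ₃) = μ := by
    rw [← hμ, hb, map_mul v (κ₁ * κ₂ * κ₃), hw, mul_one]
  have hsq : cl v μ (κ₂ * κ₃) * cl v μ (κ₁ * κ₃) * cl v μ (κ₁ * κ₂) = 1 := by
    have := cl_mul_self v μ hprod
    rw [cl_mul v μ (mul_ne_zero h10 h20) h30, cl_mul v μ h10 h20] at this
    rw [cl_mul v μ h20 h30, cl_mul v μ h10 h30, cl_mul v μ h10 h20, ← this]
    ac_rfl
  rcases hpm with h | h
  · have e1 : v (l + κ₁ - s) < 1 := by
      have : l + κ₁ - s = (l - s) + κ₁ := by ring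
      rw [this]; exact v.map_add_lt h k1
    have e2 : v (l + κ₂ - s) < 1 := by
      have : l + κ₂ - s = (l - s) + κ₂ := by ring
      rw [this]; exact v.map_add_lt h k2
    have e3 : v (l + κ₃ - s) < 1 := by
      have : l + κ₃ - s = (l - s) + κ₃ := by ring
      rw [this]; exact v.map_add_lt h k3
    rw [H1.of_pos e1, H2.of_pos e2, H3.of_pos e3, hsq]
  · have e1 : v (l + κ₁ + s) < 1 := by
      have : l + κ₁ + s = (l + s) + κ₁ := by ring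
      rw [this]; exact v.map_add_lt h k1
    have e2 : v (l + κ₂ + s) < 1 := by
      have : l + κ₂ + s = (l + s) + κ₂ := by ring
      rw [this]; exact v.map_add_lt h k2
    have e3 : v (l + κ₃ + s) < 1 := by
      have : l + κ₃ + s = (l + s) + κ₃ := by ring
      rw [this]; exact v.map_add_lt h k3
    rw [H1.of_neg e1, H2.of_neg e2, H3.of_neg e3, ← mul_inv, ← mul_inv, hsq, inv_one]

/-- Case B: exactly `κ₃` is a unit. -/
theorem triple_caseB (hs : s ^ 2 = a) (hμ : v b = μ)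
    (h10 : κ₁ ≠ 0) (h20 : κ₂ ≠ 0) (h30 : κ₃ ≠ 0) (hl : v l ≤ 1)
    (hE1 : κ₂ * κ₃ + κ₁ * κ₃ + κ₁ * κ₂ = l ^ 2 - a)
    (hb : b = κ₁ * κ₂ * κ₃ * (κ₁ + κ₂ + κ₃ + 2 * l))
    (H1 : IsC v μ s (κ₂ * κ₃) (l + κ₁) c₁) (H2 : IsC v μ s (κ₁ * κ₃) (l + κ₂) c₂)
    (H3 : IsC v μ s (κ₁ * κ₂) (l + κ₃) c₃) (h2 : v (2 : K) = 1)
    (k1 : v κ₁ < 1) (k2 : v κ₂ < 1) (k3 : v κ₃ = 1) : c₁ * c₂ * c₃ = 1 := by
  have hla : v (l ^ 2 - a) < 1 := by
    rw [← hE1]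
    exact v.map_add_lt (v.map_add_lt (val_mul_lt_one_left k2 k3.le) (val_mul_lt_one_left k1 k3.le))
      (val_mul_lt_one_left k1 k2.le)
  have hpm := val_sub_or_add_lt_one hs hla
  have hX1 : cl v μ (κ₂ * κ₃) = cl v μ κ₂ := by
    rw [cl_mul v μ h20 h30, cl_eq_one v μ k3, mul_one]
  have hX2 : cl v μ (κ₁ * κ₃) = cl v μ κ₁ := by
    rw [cl_mul v μ h10 h30, cl_eq_one v μ k3, mul_one]
  have hX3 : cl v μ (κ₁ * κ₂) = cl v μ κ₁ * cl v μ κ₂ := cl_mul v μ h10 h20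
  have hw1 : v (κ₁ + κ₂ + κ₃ + 2 * l) ≤ 1 := by
    refine v.map_add_le (v.map_add_le (v.map_add_le k1.le k2.le) k3.le) ?_
    rw [map_mul, h2, one_mul]; exact hl
  rcases hw1.lt_or_eq with hw | hw
  · -- `κ₃ + 2 l` small
    have hk : v (κ₃ + 2 * l) < 1 := by
      have : κ₃ + 2 * l = (κ₁ + κ₂ + κ₃ + 2 * l) - (κ₁ + κ₂) := by ring
      rw [this]; exact v.map_sub_lt hw (v.map_add_lt k1 k2)
    rcases hpm with h | h
    · have e1 : v (l + κ₁ - s) < 1 := by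
        have : l + κ₁ - s = (l - s) + κ₁ := by ring
        rw [this]; exact v.map_add_lt h k1
      have e2 : v (l + κ₂ - s) < 1 := by
        have : l + κ₂ - s = (l - s) + κ₂ := by ring
        rw [this]; exact v.map_add_lt h k2
      have e3 : v (l + κ₃ + s) < 1 := by
        have : l + κ₃ + s = (κ₃ + 2 * l) - (l - s) := by ring
        rw [this]; exact v.map_sub_lt hk h
      rw [H1.of_pos e1, H2.of_pos e2, H3.of_neg e3, hX1, hX2, hX3, mul_comm (cl v μ κ₂)]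
      exact mul_inv_cancel _
    · have e1 : v (l + κ₁ + s) < 1 := by
        have : l + κ₁ + s = (l + s) + κ₁ := by ring
        rw [this]; exact v.map_add_lt h k1
      have e2 : v (l + κ₂ + s) < 1 := by
        have : l + κ₂ + s = (l + s) + κ₂ := by ring
        rw [this]; exact v.map_add_lt h k2
      have e3 : v (l + κ₃ - s) < 1 := by
        have : l + κ₃ - s = (κ₃ + 2 * l) - (l + s) := by ring
        rw [this]; exact v.map_sub_lt hk h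
      rw [H1.of_neg e1, H2.of_neg e2, H3.of_pos e3, hX1, hX2, hX3, ← mul_inv,
        mul_comm (cl v μ κ₂)]
      exact inv_mul_cancel _
  · -- `w` a unit: `v X₃ = μ`
    have hX3μ : v (κ₁ * κ₂) = μ := by
      rw [← hμ, hb, map_mul v (κ₁ * κ₂ * κ₃), hw, mul_one, map_mul v (κ₁ * κ₂), k3, mul_one]
    have hsq := cl_mul_self v μ hX3μ
    rcases hpm with h | h
    · have e1 : v (l + κ₁ - s) < 1 := by
        have : l + κ₁ - s = (l - s) + κ₁ := by ring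
        rw [this]; exact v.map_add_lt h k1
      have e2 : v (l + κ₂ - s) < 1 := by
        have : l + κ₂ - s = (l - s) + κ₂ := by ring
        rw [this]; exact v.map_add_lt h k2
      rw [H1.of_pos e1, H2.of_pos e2, H3.of_mu hX3μ, hX1, hX2, mul_comm (cl v μ κ₂), ← hX3, hsq]
    · have e1 : v (l + κ₁ + s) < 1 := by
        have : l + κ₁ + s = (l + s) + κ₁ := by ring
        rw [this]; exact v.map_add_lt h k1
      have e2 : v (l + κ₂ + s) < 1 := by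
        have : l + κ₂ + s = (l + s) + κ₂ := by ring
        rw [this]; exact v.map_add_lt h k2
      rw [H1.of_neg e1, H2.of_neg e2, H3.of_mu hX3μ, hX1, hX2, ← mul_inv, mul_comm (cl v μ κ₂),
        ← hX3]
      exact inv_mul_cancel _

/-- Case C: exactly `κ₂`, `κ₃` are units. -/
theorem triple_caseC (hs : s ^ 2 = a) (hμ : v b = μ)
    (h10 : κ₁ ≠ 0) (h20 : κ₂ ≠ 0) (h30 : κ₃ ≠ 0) (hl : v l ≤ 1)
    (hE1 : κ₂ * κ₃ + κ₁ * κ₃ + κ₁ * κ₂ = l ^ 2 - a)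
    (hb : b = κ₁ * κ₂ * κ₃ * (κ₁ + κ₂ + κ₃ + 2 * l))
    (H1 : IsC v μ s (κ₂ * κ₃) (l + κ₁) c₁) (H2 : IsC v μ s (κ₁ * κ₃) (l + κ₂) c₂)
    (H3 : IsC v μ s (κ₁ * κ₂) (l + κ₃) c₃) (h2 : v (2 : K) = 1)
    (k1 : v κ₁ < 1) (k2 : v κ₂ = 1) (k3 : v κ₃ = 1) : c₁ * c₂ * c₃ = 1 := by
  have hc1 : c₁ = 1 := H1.of_one (by rw [map_mul, k2, k3, one_mul])
  have hX2 : cl v μ (κ₁ * κ₃) = cl v μ κ₁ := by
    rw [cl_mul v μ h10 h30, cl_eq_one v μ k3, mul_one]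
  have hX3 : cl v μ (κ₁ * κ₂) = cl v μ κ₁ := by
    rw [cl_mul v μ h10 h20, cl_eq_one v μ k2, mul_one]
  have hw1 : v (κ₁ + κ₂ + κ₃ + 2 * l) ≤ 1 := by
    refine v.map_add_le (v.map_add_le (v.map_add_le k1.le k2.le) k3.le) ?_
    rw [map_mul, h2, one_mul]; exact hl
  rw [hc1, one_mul]
  rcases hw1.lt_or_eq with hw | hw
  · have hη2 : v ((l + κ₂) ^ 2 - a) < 1 := by
      have : (l + κ₂) ^ 2 - a = κ₂ * (κ₁ + κ₂ + κ₃ + 2 * l) + κ₁ * κ₃ := by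
        linear_combination -hE1
      rw [this]
      exact v.map_add_lt (val_mul_lt_one_right k2.le hw) (val_mul_lt_one_left k1 k3.le)
    have hsum : v ((l + κ₂) + (l + κ₃)) < 1 := by
      have : (l + κ₂) + (l + κ₃) = (κ₁ + κ₂ + κ₃ + 2 * l) - κ₁ := by ring
      rw [this]; exact v.map_sub_lt hw k1
    rcases val_sub_or_add_lt_one hs hη2 with h | h
    · have e3 : v (l + κ₃ + s) < 1 := by
        have : l + κ₃ + s = ((l + κ₂) + (l + κ₃)) - (l + κ₂ - s) := by ring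
        rw [this]; exact v.map_sub_lt hsum h
      rw [H2.of_pos h, H3.of_neg e3, hX2, hX3]
      exact mul_inv_cancel _
    · have e3 : v (l + κ₃ - s) < 1 := by
        have : l + κ₃ - s = ((l + κ₂) + (l + κ₃)) - (l + κ₂ + s) := by ring
        rw [this]; exact v.map_sub_lt hsum h
      rw [H2.of_neg h, H3.of_pos e3, hX2, hX3]
      exact inv_mul_cancel _
  · have hκ1 : v κ₁ = μ := by
      rw [← hμ, hb, map_mul v (κ₁ * κ₂ * κ₃), hw, mul_one, map_mul v (κ₁ * κ₂), k3, mul_one,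
        map_mul, k2, mul_one]
    have hX2μ : v (κ₁ * κ₃) = μ := by rw [map_mul, k3, mul_one, hκ1]
    have hX3μ : v (κ₁ * κ₂) = μ := by rw [map_mul, k2, mul_one, hκ1]
    rw [H2.of_mu hX2μ, H3.of_mu hX3μ, hX2, hX3]
    exact cl_mul_self v μ hκ1

/-- Case D: all `κ` are units. -/
theorem triple_caseD
    (H1 : IsC v μ s (κ₂ * κ₃) (l + κ₁) c₁) (H2 : IsC v μ s (κ₁ * κ₃) (l + κ₂) c₂)
    (H3 : IsC v μ s (κ₁ * κ₂) (l + κ₃) c₃)
    (k1 : v κ₁ = 1) (k2 : v κ₂ = 1) (k3 : v κ₃ = 1) : c₁ * c₂ * c₃ = 1 := by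
  rw [H1.of_one (by rw [map_mul, k2, k3, one_mul]), H2.of_one (by rw [map_mul, k1, k3, one_mul]),
    H3.of_one (by rw [map_mul, k1, k2, one_mul]), one_mul, one_mul]

/-- The abstract additivity statement. -/
theorem triple_main (hs : s ^ 2 = a) (hvs : v s = 1) (h2 : v (2 : K) = 1) (hμ : v b = μ)
    (h10 : κ₁ ≠ 0) (h20 : κ₂ ≠ 0) (h30 : κ₃ ≠ 0) (hl : v l ≤ 1)
    (hE1 : κ₂ * κ₃ + κ₁ * κ₃ + κ₁ * κ₂ = l ^ 2 - a)
    (hb : b = κ₁ * κ₂ * κ₃ * (κ₁ + κ₂ + κ₃ + 2 * l))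
    (H1 : IsC v μ s (κ₂ * κ₃) (l + κ₁) c₁) (H2 : IsC v μ s (κ₁ * κ₃) (l + κ₂) c₂)
    (H3 : IsC v μ s (κ₁ * κ₂) (l + κ₃) c₃)
    (k1 : v κ₁ ≤ 1) (k2 : v κ₂ ≤ 1) (k3 : v κ₃ ≤ 1) : c₁ * c₂ * c₃ = 1 := by
  rcases k1.lt_or_eq with k1 | k1 <;> rcases k2.lt_or_eq with k2 | k2 <;>
    rcases k3.lt_or_eq with k3 | k3
  · exact triple_caseA hs hvs h2 hμ h10 h20 h30 hE1 hb H1 H2 H3 k1 k2 k3
  · exact triple_caseB hs hμ h10 h20 h30 hl hE1 hb H1 H2 H3 h2 k1 k2 k3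
  · -- unit: κ₂ ; order (κ₁, κ₃, κ₂)
    have := triple_caseB (κ₁ := κ₁) (κ₂ := κ₃) (κ₃ := κ₂) (c₁ := c₁) (c₂ := c₃) (c₃ := c₂)
      hs hμ h10 h30 h20 hl (by linear_combination hE1) (by rw [hb]; ring)
      (by rwa [mul_comm]) H3 H2 h2 k1 k3 k2
    rw [← this]; ac_rfl
  · exact triple_caseC hs hμ h10 h20 h30 hl hE1 hb H1 H2 H3 h2 k1 k2 k3
  · -- unit: κ₁ ; order (κ₂, κ₃, κ₁)
    have := triple_caseB (κ₁ := κ₂) (κ₂ := κ₃) (κ₃ := κ₁) (c₁ := c₂) (c₂ := c₃) (c₃ := c₁)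
      hs hμ h20 h30 h10 hl (by linear_combination hE1) (by rw [hb]; ring)
      (by rwa [mul_comm]) (by rwa [mul_comm]) H1 h2 k2 k3 k1
    rw [← this]; ac_rfl
  · -- nonunit: κ₂ ; order (κ₂, κ₁, κ₃)
    have := triple_caseC (κ₁ := κ₂) (κ₂ := κ₁) (κ₃ := κ₃) (c₁ := c₂) (c₂ := c₁) (c₃ := c₃)
      hs hμ h20 h10 h30 hl (by linear_combination hE1) (by rw [hb]; ring)
      H2 H1 (by rwa [mul_comm]) h2 k2 k1 k3
    rw [← this]; ac_rfl
  · -- nonunit: κ₃ ; order (κ₃, κ₁, κ₂)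
    have := triple_caseC (κ₁ := κ₃) (κ₂ := κ₁) (κ₃ := κ₂) (c₁ := c₃) (c₂ := c₁) (c₃ := c₂)
      hs hμ h30 h10 h20 hl (by linear_combination hE1) (by rw [hb]; ring)
      H3 (by rwa [mul_comm]) (by rwa [mul_comm]) h2 k3 k1 k2
    rw [← this]; ac_rfl
  · exact triple_caseD H1 H2 H3 k1 k2 k3

end Cases

end Fermat.Agent.S05
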