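import Fermat.Agent.S05.Model
import Fermat.Agent.S05.Component

/-!
# S05: the Model-level fixed point theorem

`Y^2 = X (X - e) (X - e')`, `v e = 1`, `v (e - e') = 1`, `v e' ≤ 1`.
-/

namespace Fermat.Agent.S05

namespace Model

variable {K : Type*} [Field K] {Γ₀ : Type*} [LinearOrderedCommGroupWithZero Γ₀]
  (v : Valuation K Γ₀) {G : Type*} [AddCommGroup G]

section Basic

variable {e e' : K} (M : Model K (-(e + e')) (e * e') G)

include M in
theorem eqn' {P : G} (hP : P ≠ 0) :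
    M.Y P ^ 2 = M.X P * (M.X P - e) * (M.X P - e') := by
  rw [M.eqn P hP]; ring

/-- odd torsion points are not killed by 2 -/
theorem two_nsmul_ne_zero_of_odd {p : ℕ} (hp : Odd p) {P : G} (hP : P ≠ 0) (hpP : p • P = 0) :
    2 • P ≠ 0 := by
  intro h
  obtain ⟨k, rfl⟩ := hp
  apply hP
  have : (2 * k + 1) • P = k • (2 • P) + P := by
    rw [add_smul, one_smul, mul_comm, mul_smul]
  rw [this, h, smul_zero, zero_add] at hpP
  exact hpP

include M in
theorem Y_ne_zero_of_odd {p : ℕ} (hp : Odd p) {P : G} (hP : P ≠ 0) (hpP : p • P = 0) :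
    M.Y P ≠ 0 := fun h =>
  two_nsmul_ne_zero_of_odd hp hP hpP (M.two_nsmul_eq_zero_of_Y_eq_zero hP h)

include M in
theorem X_ne_of_odd {p : ℕ} (hp : Odd p) {P : G} (hP : P ≠ 0) (hpP : p • P = 0) :
    M.X P ≠ 0 ∧ M.X P - e ≠ 0 ∧ M.X P - e' ≠ 0 := by
  have hY := M.Y_ne_zero_of_odd hp hP hpP
  have h := M.eqn' hP
  have h' : M.X P * (M.X P - e) * (M.X P - e') ≠ 0 := by
    rw [← h]; exact pow_ne_zero 2 hY
  exact ⟨left_ne_zero_of_mul (left_ne_zero_of_mul h'), right_ne_zero_of_mul (left_ne_zero_of_mul h'),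
    right_ne_zero_of_mul h'⟩

variable {v}

include M in
/-- Adding a 2-torsion point `T` to an odd torsion point: integrality of the slope. -/
theorem exists_slope_two_torsion (he : v e ≤ 1) (he' : v e' ≤ 1) {p : ℕ} (hp : Odd p)
    (hint : ∀ P : G, P ≠ 0 → (2 * p) • P = 0 → v (M.X P) ≤ 1)
    {P : G} (hP : P ≠ 0) (hpP : p • P = 0) {T : G} (hT : T ≠ 0) (hTY : M.Y T = 0) :
    ∃ l : K, v l ≤ 1 ∧ M.Y P = l * (M.X P - M.X T) := by
  have h2T : 2 • T = 0 := M.two_nsmul_eq_zero_of_Y_eq_zero hT hTY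
  have hPT : P + T ≠ 0 := by
    intro h
    have hPe : P = -T := eq_neg_of_add_eq_zero_left h
    apply two_nsmul_ne_zero_of_odd hp hP hpP
    rw [hPe, smul_neg, h2T, neg_zero]
  have h2pP : (2 * p) • P = 0 := by rw [mul_smul, hpP, smul_zero]
  have h2pT : (2 * p) • T = 0 := by rw [mul_comm, mul_smul, h2T, smul_zero]
  have h2pPT : (2 * p) • (P + T) = 0 := by rw [smul_add, h2pP, h2pT, add_zero]
  obtain ⟨l, n, h1, h2, -, h4, -, -⟩ := M.line_add hP hT hPT
  refine ⟨l, ?_, ?_⟩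
  · have hl : l ^ 2 = M.X P + M.X T + M.X (P + T) - (e + e') := by linear_combination -h4
    have : v (l ^ 2) ≤ 1 := by
      rw [hl]
      exact v.map_sub_le (v.map_add_le (v.map_add_le (hint P hP h2pP) (hint T hT h2pT))
        (hint _ hPT h2pPT)) (v.map_add_le he he')
    rw [map_pow] at this
    exact (pow_le_one_iff (by norm_num)).mp this
  · rw [hTY] at h2
    linear_combination h1 - h2

include M in
/-- The three basic inequalities for an odd torsion point. -/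
theorem val_ineqs (he : v e ≤ 1) (he' : v e' ≤ 1) {p : ℕ} (hp : Odd p)
    (hint : ∀ P : G, P ≠ 0 → (2 * p) • P = 0 → v (M.X P) ≤ 1)
    {P : G} (hP : P ≠ 0) (hpP : p • P = 0) :
    v (M.X P - e) * v (M.X P - e') ≤ v (M.X P) ∧
    v (M.X P) * v (M.X P - e') ≤ v (M.X P - e) ∧
    v (M.X P) * v (M.X P - e) ≤ v (M.X P - e') := by
  obtain ⟨h0, h1, h2⟩ := M.X_ne_of_odd hp hP hpP
  have hY := M.eqn' hP
  refine ⟨?_, ?_, ?_⟩
  · obtain ⟨T, hT, hTX, hTY⟩ := M.exists_two_torsion 0 (by ring)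
    obtain ⟨l, hl, hYl⟩ := M.exists_slope_two_torsion he he' hp hint hP hpP hT hTY
    rw [hTX, sub_zero] at hYl
    have : (M.X P - e) * (M.X P - e') = l ^ 2 * M.X P := by
      apply mul_left_cancel₀ h0
      rw [hYl] at hY
      linear_combination -hY
    rw [← map_mul, this, map_mul, map_pow]
    exact mul_le_of_le_one_left' (pow_le_one' hl 2)
  · obtain ⟨T, hT, hTX, hTY⟩ := M.exists_two_torsion e (by ring)
    obtain ⟨l, hl, hYl⟩ := M.exists_slope_two_torsion he he' hp hint hP hpP hT hTY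
    rw [hTX] at hYl
    have : M.X P * (M.X P - e') = l ^ 2 * (M.X P - e) := by
      apply mul_left_cancel₀ h1
      rw [hYl] at hY
      linear_combination -hY
    rw [← map_mul, this, map_mul, map_pow]
    exact mul_le_of_le_one_left' (pow_le_one' hl 2)
  · obtain ⟨T, hT, hTX, hTY⟩ := M.exists_two_torsion e' (by ring)
    obtain ⟨l, hl, hYl⟩ := M.exists_slope_two_torsion he he' hp hint hP hpP hT hTY
    rw [hTX] at hYl
    have : M.X P * (M.X P - e) = l ^ 2 * (M.X P - e') := by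
      apply mul_left_cancel₀ h2
      rw [hYl] at hY
      linear_combination -hY
    rw [← map_mul, this, map_mul, map_pow]
    exact mul_le_of_le_one_left' (pow_le_one' hl 2)

include M in
/-- Consequences: `v (X - e) = 1`, `v X = v (X - e')`, `v e' ≤ v X ≤ 1`. -/
theorem val_facts (he : v e = 1) (he' : v e' ≤ 1) (hee' : v (e - e') = 1) {p : ℕ} (hp : Odd p)
    (hint : ∀ P : G, P ≠ 0 → (2 * p) • P = 0 → v (M.X P) ≤ 1)
    {P : G} (hP : P ≠ 0) (hpP : p • P = 0) :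
    v (M.X P - e) = 1 ∧ v (M.X P - e') = v (M.X P) ∧ v e' ≤ v (M.X P) ∧ v (M.X P) ≤ 1 := by
  obtain ⟨i3, i1, i2⟩ := M.val_ineqs he.le he' hp hint hP hpP
  have hX1 : v (M.X P) ≤ 1 := hint P hP (by rw [mul_smul, hpP, smul_zero])
  have h1 : v (M.X P - e) = 1 := by
    refine le_antisymm (v.map_sub_le hX1 he.le) (not_lt.mp fun hlt => ?_)
    have hX : v (M.X P) = 1 := by
      have : M.X P = (M.X P - e) + e := by ring
      rw [this, v.map_add_eq_of_lt_right (by rwa [he]), he]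
    have hX' : v (M.X P - e') = 1 := by
      have : M.X P - e' = (M.X P - e) + (e - e') := by ring
      rw [this, v.map_add_eq_of_lt_right (by rwa [hee']), hee']
    rw [hX, hX', one_mul] at i1
    exact absurd hlt (not_lt.mpr i1)
  rw [h1, one_mul] at i3
  rw [h1, mul_one] at i2
  have h2 : v (M.X P - e') = v (M.X P) := le_antisymm i3 i2
  refine ⟨h1, h2, not_lt.mp fun hlt => ?_, hX1⟩
  rw [v.map_sub_eq_of_lt_right hlt] at h2
  exact absurd h2.symm hlt.ne


include M in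
/-- `η = Y / X` is a unit at an odd torsion point. -/
theorem val_Y_eq_val_X (he : v e = 1) (he' : v e' ≤ 1) (hee' : v (e - e') = 1) {p : ℕ} (hp : Odd p)
    (hint : ∀ P : G, P ≠ 0 → (2 * p) • P = 0 → v (M.X P) ≤ 1)
    {P : G} (hP : P ≠ 0) (hpP : p • P = 0) : v (M.Y P) = v (M.X P) := by
  obtain ⟨h1, h2, -, -⟩ := M.val_facts he he' hee' hp hint hP hpP
  have h := congrArg v (M.eqn' hP)
  rw [map_pow, map_mul, map_mul, h1, h2, mul_one, ← pow_two] at h
  exact (pow_left_inj (by norm_num)).mp h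

include M in
/-- KEY LEMMA: if `φ X ≡ X` to higher order then `Φ P = P`. -/
theorem fixed_of_val_sub_lt (he : v e = 1) (he' : v e' ≤ 1) (hee' : v (e - e') = 1)
    (h2 : v (2 : K) = 1) {p : ℕ} (hp : Odd p)
    (hint : ∀ P : G, P ≠ 0 → (2 * p) • P = 0 → v (M.X P) ≤ 1)
    (φ : K →+* K) (hφ : ∀ x, v x ≤ 1 → v (φ x - x) < 1)
    (Φ : G →+ G) (hΦ0 : ∀ P, P ≠ 0 → Φ P ≠ 0) (hΦX : ∀ P, P ≠ 0 → M.X (Φ P) = φ (M.X P))
    (hΦY : ∀ P, P ≠ 0 → M.Y (Φ P) = φ (M.Y P))
    {P : G} (hP : P ≠ 0) (hpP : p • P = 0) (hX : v (φ (M.X P) - M.X P) < v (M.X P)) :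
    Φ P = P := by
  by_contra hne
  set D : G := Φ P - P with hD
  have hD0 : D ≠ 0 := sub_ne_zero.mpr hne
  have hPD : P + D = Φ P := by rw [hD]; abel
  have hpΦ : p • Φ P = 0 := by rw [← map_nsmul, hpP, map_zero]
  have hpD : p • D = 0 := by rw [hD, smul_sub, hpΦ, hpP, sub_zero]
  have tw : ∀ R : G, p • R = 0 → (2 * p) • R = 0 := fun R hR => by rw [mul_smul, hR, smul_zero]
  have hΦP0 : Φ P ≠ 0 := hΦ0 P hP
  obtain ⟨l, n, h1, -, h3, h4, -, -⟩ := M.line_add hP hD0 (by rw [hPD]; exact hΦP0)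
  rw [hPD, hΦX P hP] at h4 h3
  rw [hΦY P hP] at h3
  have hl : v l ≤ 1 := by
    have hl2 : l ^ 2 = M.X P + M.X D + φ (M.X P) - (e + e') := by linear_combination -h4
    have : v (l ^ 2) ≤ 1 := by
      rw [hl2]
      refine v.map_sub_le (v.map_add_le (v.map_add_le (hint P hP (tw P hpP))
        (hint D hD0 (tw D hpD))) ?_) (v.map_add_le he.le he')
      rw [← hΦX P hP]
      exact hint _ hΦP0 (tw _ hpΦ)
    rw [map_pow] at this
    exact (pow_le_one_iff (by norm_num)).mp this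
  obtain ⟨hX0, -, -⟩ := M.X_ne_of_odd hp hP hpP
  have hvX0 : v (M.X P) ≠ 0 := v.ne_zero_iff.mpr hX0
  -- `Y + φ Y = l (X - φ X)` is small
  have hsmall : v (M.Y P + φ (M.Y P)) < v (M.X P) := by
    have : M.Y P + φ (M.Y P) = -(l * (φ (M.X P) - M.X P)) := by linear_combination h1 - h3
    rw [this, Valuation.map_neg, map_mul]
    exact lt_of_le_of_lt (mul_le_of_le_one_left' hl) hX
  -- but `Y + φ Y = 2 Y + (φ Y - Y)` with `φ Y - Y` small
  set η : K := M.Y P / M.X P with hη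
  have hYX := M.val_Y_eq_val_X he he' hee' hp hint hP hpP
  have hvη : v η = 1 := by rw [hη, map_div₀, hYX, div_self hvX0]
  have hYη : M.Y P = η * M.X P := by rw [hη, div_mul_cancel₀ _ hX0]
  have hφη : v (φ η - η) < 1 := hφ η hvη.le
  have hdiff : v (φ (M.Y P) - M.Y P) < v (M.X P) := by
    have : φ (M.Y P) - M.Y P = (φ η - η) * M.X P + φ η * (φ (M.X P) - M.X P) := by
      rw [hYη, map_mul]; ring
    rw [this]
    refine v.map_add_lt ?_ ?_
    · rw [map_mul]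
      exact mul_lt_of_lt_one_left (zero_lt_iff.mpr hvX0) hφη
    · rw [map_mul]
      have hφη1 : v (φ η) ≤ 1 := by
        have : φ η = (φ η - η) + η := by ring
        rw [this]
        exact v.map_add_le hφη.le hvη.le
      exact lt_of_le_of_lt (mul_le_of_le_one_left' hφη1) hX
  have h2Y : v (2 * M.Y P) = v (M.X P) := by rw [map_mul, h2, one_mul, hYX]
  have : v (M.Y P + φ (M.Y P)) = v (M.X P) := by
    have h' : M.Y P + φ (M.Y P) = 2 * M.Y P + (φ (M.Y P) - M.Y P) := by ring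
    rw [h', v.map_add_eq_of_lt_left (by rwa [h2Y]), h2Y]
  exact absurd this hsmall.ne

include M in
/-- If `v X` is the valuation of a `φ`-fixed element then `Φ P = P`. -/
theorem fixed_of_val_eq (he : v e = 1) (he' : v e' ≤ 1) (hee' : v (e - e') = 1)
    (h2 : v (2 : K) = 1) {p : ℕ} (hp : Odd p)
    (hint : ∀ P : G, P ≠ 0 → (2 * p) • P = 0 → v (M.X P) ≤ 1)
    (φ : K →+* K) (hφ : ∀ x, v x ≤ 1 → v (φ x - x) < 1)
    (Φ : G →+ G) (hΦ0 : ∀ P, P ≠ 0 → Φ P ≠ 0) (hΦX : ∀ P, P ≠ 0 → M.X (Φ P) = φ (M.X P))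
    (hΦY : ∀ P, P ≠ 0 → M.Y (Φ P) = φ (M.Y P))
    {P : G} (hP : P ≠ 0) (hpP : p • P = 0) (y : K) (hy : φ y = y) (hXy : v (M.X P) = v y) :
    Φ P = P := by
  refine M.fixed_of_val_sub_lt he he' hee' h2 hp hint φ hφ Φ hΦ0 hΦX hΦY hP hpP ?_
  obtain ⟨hX0, -, -⟩ := M.X_ne_of_odd hp hP hpP
  have hvX0 : v (M.X P) ≠ 0 := v.ne_zero_iff.mpr hX0
  have hy0 : y ≠ 0 := v.ne_zero_iff.mp (hXy ▸ hvX0)
  set w : K := M.X P / y with hw
  have hvw : v w = 1 := by rw [hw, map_div₀, hXy, div_self (hXy ▸ hvX0)]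
  have hXw : M.X P = w * y := by rw [hw, div_mul_cancel₀ _ hy0]
  have : φ (M.X P) - M.X P = (φ w - w) * y := by
    rw [hXw, map_mul, hy]; ring
  rw [this, map_mul, hXy]
  exact mul_lt_of_lt_one_left (zero_lt_iff.mpr (hXy ▸ hvX0)) (hφ w hvw.le)

end Basic


section Mult

variable {e e' : K} (M : Model K (-(e + e')) (e * e') G) (μ : Γ₀ˣ) (s : K)

open Classical in
/-- The signed component class of a point. -/
noncomputable def comp (P : G) : Q μ :=
  if P = 0 then 1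
  else if v (M.Y P / M.X P - s) < 1 then cl v μ (M.X P) else (cl v μ (M.X P))⁻¹

theorem comp_zero : M.comp v μ s 0 = 1 := by
  rw [comp, if_pos rfl]

variable {v μ s}

theorem comp_eq_or {P : G} (hP : P ≠ 0) :
    M.comp v μ s P = cl v μ (M.X P) ∨ M.comp v μ s P = (cl v μ (M.X P))⁻¹ := by
  rw [comp, if_neg hP]
  split_ifs
  · exact Or.inl rfl
  · exact Or.inr rfl

theorem isC_comp (hvs : v s = 1) (h2 : v (2 : K) = 1) {P : G} (hP : P ≠ 0) :
    IsC v μ s (M.X P) (M.Y P / M.X P) (M.comp v μ s P) where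
  of_one h := by
    rcases M.comp_eq_or (v := v) (μ := μ) (s := s) hP with h' | h' <;> rw [h', cl_eq_one v μ h]
    exact inv_one
  of_mu h := by
    rcases M.comp_eq_or (v := v) (μ := μ) (s := s) hP with h' | h' <;> rw [h']
    exact cl_inv_eq v μ h
  of_pos h := by rw [comp, if_neg hP, if_pos h]
  of_neg h := by
    have : ¬ v (M.Y P / M.X P - s) < 1 := by
      intro h'
      have h2s : v (2 * s) = 1 := by rw [map_mul, h2, hvs, one_mul]
      have : 2 * s = (M.Y P / M.X P + s) - (M.Y P / M.X P - s) := by ring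
      rw [this] at h2s
      exact absurd h2s (v.map_sub_lt h h').ne
    rw [comp, if_neg hP, if_neg this]

/-- For an odd torsion point one of the four defining cases of `IsC` applies. -/
theorem good_cases (he : v e = 1) (he' : v e' ≤ 1) (hee' : v (e - e') = 1) {p : ℕ} (hp : Odd p)
    (hint : ∀ P : G, P ≠ 0 → (2 * p) • P = 0 → v (M.X P) ≤ 1)
    (hμ : v (e * e') = μ) (hs : s ^ 2 = -(e + e'))
    {P : G} (hP : P ≠ 0) (hpP : p • P = 0) :
    v (M.X P) = 1 ∨ v (M.X P) = μ ∨ v (M.Y P / M.X P - s) < 1 ∨ v (M.Y P / M.X P + s) < 1 := by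
  obtain ⟨-, -, h3, h4⟩ := M.val_facts he he' hee' hp hint hP hpP
  obtain ⟨hX0, -, -⟩ := M.X_ne_of_odd hp hP hpP
  have hvX0 : v (M.X P) ≠ 0 := v.ne_zero_iff.mpr hX0
  have hμ' : v e' = μ := by rw [← hμ, map_mul, he, one_mul]
  rcases h4.lt_or_eq with h4 | h4
  · rcases h3.lt_or_eq with h3 | h3
    · right; right
      apply val_sub_or_add_lt_one hs
      have : (M.Y P / M.X P) ^ 2 - -(e + e') = M.X P + e * e' / M.X P := by
        rw [div_pow, M.eqn' hP]
        field_simp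
        ring
      rw [this]
      refine v.map_add_lt h4 ?_
      rw [map_div₀, map_mul, he, one_mul]
      exact (div_lt_one₀ (zero_lt_iff.mpr hvX0)).mpr h3
    · right; left
      rw [← h3, hμ']
  · exact Or.inl h4

theorem comp_neg (he : v e = 1) (he' : v e' ≤ 1) (hee' : v (e - e') = 1) {p : ℕ} (hp : Odd p)
    (hint : ∀ P : G, P ≠ 0 → (2 * p) • P = 0 → v (M.X P) ≤ 1)
    (hμ : v (e * e') = μ) (hs : s ^ 2 = -(e + e')) (hvs : v s = 1) (h2 : v (2 : K) = 1)
    {P : G} (hP : P ≠ 0) (hpP : p • P = 0) :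
    M.comp v μ s (-P) = (M.comp v μ s P)⁻¹ := by
  have hnP : -P ≠ 0 := neg_ne_zero.mpr hP
  have H := M.isC_comp (μ := μ) hvs h2 hP
  have H' := M.isC_comp (μ := μ) hvs h2 hnP
  rw [M.X_neg P hP, M.Y_neg P hP] at H'
  rcases M.good_cases he he' hee' hp hint hμ hs hP hpP with h | h | h | h
  · rw [H.of_one h, H'.of_one h, inv_one]
  · rw [H.of_mu h, H'.of_mu h, cl_inv_eq v μ h]
  · have : v (-M.Y P / M.X P + s) < 1 := by
      have e1 : -M.Y P / M.X P + s = -(M.Y P / M.X P - s) := by ring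
      rwa [e1, Valuation.map_neg]
    rw [H.of_pos h, H'.of_neg this]
  · have : v (-M.Y P / M.X P - s) < 1 := by
      have e1 : -M.Y P / M.X P - s = -(M.Y P / M.X P + s) := by ring
      rwa [e1, Valuation.map_neg]
    rw [H.of_neg h, H'.of_pos this, inv_inv]

theorem comp_triple (he : v e = 1) (he' : v e' ≤ 1) (hee' : v (e - e') = 1) {p : ℕ} (hp : Odd p)
    (hint : ∀ P : G, P ≠ 0 → (2 * p) • P = 0 → v (M.X P) ≤ 1)
    (hμ : v (e * e') = μ) (hs : s ^ 2 = -(e + e')) (hvs : v s = 1) (h2 : v (2 : K) = 1)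
    {P₁ P₂ P₃ : G} (h1 : P₁ ≠ 0) (h2' : P₂ ≠ 0) (h3 : P₃ ≠ 0)
    (hp1 : p • P₁ = 0) (hp2 : p • P₂ = 0) (hp3 : p • P₃ = 0) (hsum : P₁ + P₂ + P₃ = 0) :
    M.comp v μ s P₁ * M.comp v μ s P₂ * M.comp v μ s P₃ = 1 := by
  obtain ⟨l, n, hY1, hY2, hY3, hE1, hE2, hE3⟩ := M.line P₁ P₂ P₃ h1 h2' h3 hsum
  obtain ⟨x1, -, -⟩ := M.X_ne_of_odd hp h1 hp1
  obtain ⟨x2, -, -⟩ := M.X_ne_of_odd hp h2' hp2
  obtain ⟨x3, -, -⟩ := M.X_ne_of_odd hp h3 hp3
  have tw : ∀ R : G, p • R = 0 → (2 * p) • R = 0 := fun R hR => by rw [mul_smul, hR, smul_zero]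
  have hl : v l ≤ 1 := by
    have hl2 : l ^ 2 = M.X P₁ + M.X P₂ + M.X P₃ - (e + e') := by linear_combination -hE1
    have : v (l ^ 2) ≤ 1 := by
      rw [hl2]
      exact v.map_sub_le (v.map_add_le (v.map_add_le (hint _ h1 (tw _ hp1))
        (hint _ h2' (tw _ hp2))) (hint _ h3 (tw _ hp3))) (v.map_add_le he.le he')
    rw [map_pow] at this
    exact (pow_le_one_iff (by norm_num)).mp this
  have hn : n ≠ 0 := by
    intro h
    rw [h] at hE3
    have : M.X P₁ * M.X P₂ * M.X P₃ ≠ 0 := mul_ne_zero (mul_ne_zero x1 x2) x3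
    exact this (by rw [hE3]; ring)
  have hη : ∀ {R : G}, R ≠ 0 → p • R = 0 → M.X R ≠ 0 → M.Y R = l * M.X R + n →
      M.Y R / M.X R = l + n / M.X R ∧ v (n / M.X R) ≤ 1 := by
    intro R hR hpR hx hY
    have h1 : M.Y R / M.X R = l + n / M.X R := by
      rw [hY]; field_simp
    refine ⟨h1, ?_⟩
    have h2 : n / M.X R = M.Y R / M.X R - l := by rw [h1]; ring
    rw [h2]
    refine v.map_sub_le ?_ hl
    rw [map_div₀, M.val_Y_eq_val_X he he' hee' hp hint hR hpR,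
      div_self (v.ne_zero_iff.mpr hx)]
  obtain ⟨e1, k1⟩ := hη h1 hp1 x1 hY1
  obtain ⟨e2, k2⟩ := hη h2' hp2 x2 hY2
  obtain ⟨e3, k3⟩ := hη h3 hp3 x3 hY3
  have H1 := M.isC_comp (μ := μ) hvs h2 h1
  have H2 := M.isC_comp (μ := μ) hvs h2 h2'
  have H3 := M.isC_comp (μ := μ) hvs h2 h3
  have X1 : M.X P₁ = (n / M.X P₂) * (n / M.X P₃) := by
    field_simp
    linear_combination hE3
  have X2 : M.X P₂ = (n / M.X P₁) * (n / M.X P₃) := by
    field_simp
    linear_combination hE3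
  have X3 : M.X P₃ = (n / M.X P₁) * (n / M.X P₂) := by
    field_simp
    linear_combination hE3
  rw [e1] at H1
  rw [e2] at H2
  rw [e3] at H3
  refine triple_main (a := -(e + e')) (b := e * e') (l := l) (κ₁ := n / M.X P₁)
    (κ₂ := n / M.X P₂) (κ₃ := n / M.X P₃) hs hvs h2 hμ (div_ne_zero hn x1) (div_ne_zero hn x2)
    (div_ne_zero hn x3) hl ?_ ?_ (X1 ▸ H1) (X2 ▸ H2) (X3 ▸ H3) k1 k2 k3
  · rw [← X1, ← X2, ← X3, ← hE1]
  · have hnn : n / M.X P₁ * (n / M.X P₂) * (n / M.X P₃) = n := by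
      field_simp
      linear_combination -hE3
    rw [hnn]
    have : n * (n / M.X P₁ + n / M.X P₂ + n / M.X P₃) =
        M.X P₁ * M.X P₂ + M.X P₁ * M.X P₃ + M.X P₂ * M.X P₃ := by
      field_simp
      rw [← hE3]
      ring
    linear_combination -hE2 - this


theorem comp_add (he : v e = 1) (he' : v e' ≤ 1) (hee' : v (e - e') = 1) {p : ℕ} (hp : Odd p)
    (hint : ∀ P : G, P ≠ 0 → (2 * p) • P = 0 → v (M.X P) ≤ 1)
    (hμ : v (e * e') = μ) (hs : s ^ 2 = -(e + e')) (hvs : v s = 1) (h2 : v (2 : K) = 1)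
    {P R : G} (hpP : p • P = 0) (hpR : p • R = 0) :
    M.comp v μ s (P + R) = M.comp v μ s P * M.comp v μ s R := by
  by_cases hP : P = 0
  · rw [hP, zero_add, comp_zero, one_mul]
  by_cases hR : R = 0
  · rw [hR, add_zero, comp_zero, mul_one]
  by_cases hPR : P + R = 0
  · have : R = -P := eq_neg_of_add_eq_zero_right hPR
    rw [hPR, comp_zero, this, M.comp_neg he he' hee' hp hint hμ hs hvs h2 hP hpP,
      mul_inv_cancel]
  · have hpPR : p • (P + R) = 0 := by rw [smul_add, hpP, hpR, add_zero]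
    have h := M.comp_triple he he' hee' hp hint hμ hs hvs h2 hP hR (neg_ne_zero.mpr hPR) hpP hpR
      (by rw [smul_neg, hpPR, neg_zero]) (add_neg_cancel _)
    rw [M.comp_neg he he' hee' hp hint hμ hs hvs h2 hPR hpPR] at h
    exact (mul_inv_eq_one.mp h).symm

theorem comp_nsmul (he : v e = 1) (he' : v e' ≤ 1) (hee' : v (e - e') = 1) {p : ℕ} (hp : Odd p)
    (hint : ∀ P : G, P ≠ 0 → (2 * p) • P = 0 → v (M.X P) ≤ 1)
    (hμ : v (e * e') = μ) (hs : s ^ 2 = -(e + e')) (hvs : v s = 1) (h2 : v (2 : K) = 1)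
    {P : G} (hpP : p • P = 0) (k : ℕ) :
    M.comp v μ s (k • P) = M.comp v μ s P ^ k := by
  induction k with
  | zero => rw [zero_smul, comp_zero, pow_zero]
  | succ k ih =>
    have hk : p • (k • P) = 0 := by rw [smul_comm, hpP, smul_zero]
    rw [succ_nsmul, M.comp_add he he' hee' hp hint hμ hs hvs h2 hk hpP, ih]
    exact (pow_succ _ k).symm

/-- (i): in the multiplicative case the valuation of `X P` is an integral power of `v z`. -/
theorem exists_val_X_eq_zpow (he : v e = 1) (he' : v e' ≤ 1) (he'0 : e' ≠ 0)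
    (hee' : v (e - e') = 1) {p : ℕ} (hp : Odd p)
    (hint : ∀ P : G, P ≠ 0 → (2 * p) • P = 0 → v (M.X P) ≤ 1)
    (hs : s ^ 2 = -(e + e')) (hvs : v s = 1) (h2 : v (2 : K) = 1)
    (z : K) (hz : v e' = v z ^ p)
    {P : G} (hP : P ≠ 0) (hpP : p • P = 0) : ∃ k : ℤ, v (M.X P) = v (z ^ k) := by
  have he0 : e ≠ 0 := v.ne_zero_iff.mp (by rw [he]; exact one_ne_zero)
  have hb0 : v (e * e') ≠ 0 := v.ne_zero_iff.mpr (mul_ne_zero he0 he'0)
  set μ : Γ₀ˣ := Units.mk0 (v (e * e')) hb0 with hμdef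
  have hμ : v (e * e') = μ := rfl
  obtain ⟨hX0, -, -⟩ := M.X_ne_of_odd hp hP hpP
  have hpow : M.comp v μ s P ^ p = 1 := by
    rw [← M.comp_nsmul he he' hee' hp hint hμ hs hvs h2 hpP p, hpP, comp_zero]
  have hcl : cl v μ (M.X P) ^ p = 1 := by
    rcases M.comp_eq_or (v := v) (μ := μ) (s := s) hP with h | h
    · rwa [h] at hpow
    · rw [h, inv_pow, inv_eq_one] at hpow
      exact hpow
  obtain ⟨k, hk⟩ := exists_zpow_of_cl_pow_eq_one v μ hX0 hcl
  refine ⟨2 * k, ?_⟩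
  have hp0 : p ≠ 0 := by
    rintro rfl
    simp at hp
  apply (pow_left_inj hp0).mp
  rw [hk, ← hμ, map_mul, he, one_mul, hz, map_zpow₀, ← zpow_natCast, ← zpow_natCast, ← zpow_mul,
    ← zpow_mul, mul_comm]

end Mult


/-- **Model-level main theorem of S05.** -/
theorem fixed_of_inertia {e e' : K} (M : Model K (-(e + e')) (e * e') G)
    (he : v e = 1) (he' : v e' ≤ 1) (he'0 : e' ≠ 0) (hee' : v (e - e') = 1) (h2 : v (2 : K) = 1)
    {p : ℕ} (hp : Odd p)
    (hint : ∀ P : G, P ≠ 0 → (2 * p) • P = 0 → v (M.X P) ≤ 1)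
    (z : K) (hz : v e' = v z ^ p) (s : K) (hs : s ^ 2 = -(e + e'))
    (φ : K →+* K) (hφ : ∀ x, v x ≤ 1 → v (φ x - x) < 1) (hφz : φ z = z)
    (Φ : G →+ G) (hΦ0 : ∀ P, P ≠ 0 → Φ P ≠ 0) (hΦX : ∀ P, P ≠ 0 → M.X (Φ P) = φ (M.X P))
    (hΦY : ∀ P, P ≠ 0 → M.Y (Φ P) = φ (M.Y P))
    {P : G} (hP : p • P = 0) : Φ P = P := by
  by_cases hP0 : P = 0
  · rw [hP0, map_zero]
  rcases he'.lt_or_eq with hlt | heq
  · -- multiplicative case
    have hva : v (-(e + e')) = 1 := by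
      rw [Valuation.map_neg, v.map_add_eq_of_lt_left (by rwa [he]), he]
    have hvs : v s = 1 := by
      have := congrArg v hs
      rw [map_pow, hva] at this
      exact (pow_left_inj (two_ne_zero)).mp (by rw [this, one_pow])
    obtain ⟨k, hk⟩ := M.exists_val_X_eq_zpow he he' he'0 hee' hp hint hs hvs h2 z hz hP0 hP
    exact M.fixed_of_val_eq he he' hee' h2 hp hint φ hφ Φ hΦ0 hΦX hΦY hP0 hP (z ^ k)
      (by rw [map_zpow₀, hφz]) hk
  · -- good case
    obtain ⟨-, -, h3, h4⟩ := M.val_facts he he' hee' hp hint hP0 hP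
    rw [heq] at h3
    exact M.fixed_of_val_eq he he' hee' h2 hp hint φ hφ Φ hΦ0 hΦX hΦY hP0 hP 1 (map_one φ)
      (by rw [map_one]; exact le_antisymm h4 h3)

end Model

end Fermat.Agent.S05
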