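import Fermat.Agent.S05.Model

/-!
# S05-W1: the `Model` interface instantiated from Mathlib's `WeierstrassCurve.Affine.Point`

Given a Weierstrass curve `W` over a field `K` of characteristic `≠ 2` whose `2`-division cubic
`4x^3 + b₂x^2 + 2b₄x + b₆` splits as `4(x - r₀)(x - r₁)(x - r₂)` with distinct roots, the
coordinates `X = 4(x - r₀)`, `Y = 4(2y + a₁x + a₃)` put the curve in the form
`Y^2 = X(X - e)(X - e')`, `e = 4(r₁ - r₀)`, `e' = 4(r₂ - r₀)`.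
-/

namespace Fermat.Agent.S05

open WeierstrassCurve WeierstrassCurve.Affine

variable {K : Type*} [Field K]

/-- The `X` coordinate `4(x - r₀)` (junk value `0` at the origin). -/
def ptX (W : WeierstrassCurve.Affine K) (r₀ : K) : W.Point → K
  | .zero => 0
  | .some x _ _ => 4 * (x - r₀)

/-- The `Y` coordinate `4(2y + a₁x + a₃)` (junk value `0` at the origin). -/
def ptY (W : WeierstrassCurve.Affine K) : W.Point → K
  | .zero => 0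
  | .some x y _ => 4 * (2 * y + W.a₁ * x + W.a₃)

@[simp] theorem ptX_zero (W : WeierstrassCurve.Affine K) (r₀ : K) : ptX W r₀ 0 = 0 := rfl

@[simp] theorem ptY_zero (W : WeierstrassCurve.Affine K) : ptY W 0 = 0 := rfl

@[simp] theorem ptX_some (W : WeierstrassCurve.Affine K) (r₀ : K) {x y : K}
    (h : W.Nonsingular x y) : ptX W r₀ (.some x y h) = 4 * (x - r₀) := rfl

@[simp] theorem ptY_some (W : WeierstrassCurve.Affine K) {x y : K}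
    (h : W.Nonsingular x y) : ptY W (.some x y h) = 4 * (2 * y + W.a₁ * x + W.a₃) := rfl

/-- The chord/tangent relations in the original coordinates. -/
theorem line_aux [DecidableEq K] (W : WeierstrassCurve.Affine K) {x₁ x₂ y₁ y₂ : K}
    (h₁ : W.Equation x₁ y₁) (h₂ : W.Equation x₂ y₂)
    (hxy : ¬(x₁ = x₂ ∧ y₁ = W.negY x₂ y₂)) :
    ∃ ℓ x₃ y₃ : K, x₃ = W.addX x₁ x₂ (W.slope x₁ x₂ y₁ y₂) ∧
      y₃ = W.negAddY x₁ x₂ y₁ (W.slope x₁ x₂ y₁ y₂) ∧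
      y₂ = ℓ * (x₂ - x₁) + y₁ ∧ y₃ = ℓ * (x₃ - x₁) + y₁ ∧
      x₁ + x₂ + x₃ = ℓ ^ 2 + W.a₁ * ℓ - W.a₂ ∧
      x₁ * x₂ + x₁ * x₃ + x₂ * x₃ =
        2 * x₁ * ℓ ^ 2 + (W.a₁ * x₁ - 2 * y₁ - W.a₃) * ℓ + (-W.a₁ * y₁ + W.a₄) ∧
      x₁ * x₂ * x₃ =
        x₁ ^ 2 * ℓ ^ 2 - (2 * x₁ * y₁ + W.a₃ * x₁) * ℓ + (y₁ ^ 2 + W.a₃ * y₁ - W.a₆) := by
  have key := W.addPolynomial_slope h₁ h₂ hxy
  rw [addPolynomial_eq, neg_inj, Cubic.prod_X_sub_C_eq, Cubic.toPoly_injective,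
    Cubic.ext_iff] at key
  obtain ⟨-, kb, kc, kd⟩ := key
  simp only at kb kc kd
  refine ⟨W.slope x₁ x₂ y₁ y₂, _, _, rfl, rfl, ?_, rfl, ?_, ?_, ?_⟩
  · by_cases hx : x₁ = x₂
    · have hy : y₁ ≠ W.negY x₂ y₂ := fun h => hxy ⟨hx, h⟩
      rw [Y_eq_of_Y_ne h₁ h₂ hx hy, hx]
      ring
    · rw [slope_of_X_ne hx]
      have : x₁ - x₂ ≠ 0 := sub_ne_zero.mpr hx
      field_simp
      ring
  · linear_combination kb
  · linear_combination -kc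
  · linear_combination kd


section Fields

variable (W : WeierstrassCurve.Affine K) (r₀ r₁ r₂ : K)

/-- The completed-square form of the Weierstrass equation. -/
theorem sq_eq_of_equation {x y : K} (h : W.Equation x y)
    (hb₂ : W.b₂ = -4 * (r₀ + r₁ + r₂)) (hb₄ : W.b₄ = 2 * (r₀ * r₁ + r₀ * r₂ + r₁ * r₂))
    (hb₆ : W.b₆ = -4 * (r₀ * r₁ * r₂)) :
    (2 * y + W.a₁ * x + W.a₃) ^ 2 = 4 * ((x - r₀) * (x - r₁) * (x - r₂)) := by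
  rw [equation_iff] at h
  simp only [WeierstrassCurve.b₂, WeierstrassCurve.b₄, WeierstrassCurve.b₆] at hb₂ hb₄ hb₆
  linear_combination 4 * h + x ^ 2 * hb₂ + 2 * x * hb₄ + hb₆

theorem model_eqn (hb₂ : W.b₂ = -4 * (r₀ + r₁ + r₂))
    (hb₄ : W.b₄ = 2 * (r₀ * r₁ + r₀ * r₂ + r₁ * r₂)) (hb₆ : W.b₆ = -4 * (r₀ * r₁ * r₂))
    (P : W.Point) (_hP : P ≠ 0) :
    ptY W P ^ 2 = ptX W r₀ P ^ 3 + -(4 * (r₁ - r₀) + 4 * (r₂ - r₀)) * ptX W r₀ P ^ 2 +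
      4 * (r₁ - r₀) * (4 * (r₂ - r₀)) * ptX W r₀ P := by
  rcases P with _ | ⟨x, y, h⟩
  · simp [← Point.zero_def]
  · have := sq_eq_of_equation W r₀ r₁ r₂ h.1 hb₂ hb₄ hb₆
    simp only [ptX_some, ptY_some]
    linear_combination 16 * this

theorem model_X_neg (P : W.Point) : ptX W r₀ (-P) = ptX W r₀ P := by
  rcases P with _ | ⟨x, y, h⟩
  · rfl
  · rfl

theorem model_Y_neg (P : W.Point) : ptY W (-P) = -ptY W P := by
  rcases P with _ | ⟨x, y, h⟩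
  · simp [← Point.zero_def]
  · rw [Point.neg_some, ptY_some, ptY_some, negY]
    ring

theorem model_ext (h2 : (2 : K) ≠ 0) (P Q : W.Point) (hP : P ≠ 0) (hQ : Q ≠ 0)
    (hX : ptX W r₀ P = ptX W r₀ Q) (hY : ptY W P = ptY W Q) : P = Q := by
  have h4 : (4 : K) ≠ 0 := by
    have : (4 : K) = 2 * 2 := by norm_num
    rw [this]; exact mul_ne_zero h2 h2
  rcases P with _ | ⟨x, y, h⟩
  · exact absurd rfl hP
  rcases Q with _ | ⟨x', y', h'⟩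
  · exact absurd rfl hQ
  simp only [ptX_some, ptY_some] at hX hY
  have hx : x = x' := by
    have := mul_left_cancel₀ h4 hX
    linear_combination this
  subst hx
  have hy : y = y' := by
    have := mul_left_cancel₀ h4 hY
    have h3 : 2 * y = 2 * y' := by linear_combination this
    exact mul_left_cancel₀ h2 h3
  subst hy
  rfl

/-- The `2`-torsion point above a root `r` of the `2`-division cubic. -/
theorem nonsingular_of_root (h2 : (2 : K) ≠ 0) (hb₂ : W.b₂ = -4 * (r₀ + r₁ + r₂))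
    (hb₄ : W.b₄ = 2 * (r₀ * r₁ + r₀ * r₂ + r₁ * r₂)) (hb₆ : W.b₆ = -4 * (r₀ * r₁ * r₂))
    (r : K) (hr : (r - r₀) * (r - r₁) * (r - r₂) = 0)
    (hr' : (r - r₀) * (r - r₁) + (r - r₀) * (r - r₂) + (r - r₁) * (r - r₂) ≠ 0) :
    W.Nonsingular r (-(W.a₁ * r + W.a₃) / 2) := by
  have h4 : (4 : K) ≠ 0 := by
    have : (4 : K) = 2 * 2 := by norm_num
    rw [this]; exact mul_ne_zero h2 h2
  simp only [WeierstrassCurve.b₂, WeierstrassCurve.b₄, WeierstrassCurve.b₆] at hb₂ hb₄ hb₆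
  set y : K := -(W.a₁ * r + W.a₃) / 2 with hy
  have hy2 : 2 * y + W.a₁ * r + W.a₃ = 0 := by
    rw [hy]; field_simp; ring
  rw [nonsingular_iff, equation_iff]
  refine ⟨?_, Or.inl ?_⟩
  · apply mul_left_cancel₀ h4
    linear_combination (2 * y + W.a₁ * r + W.a₃) * hy2 - 4 * hr - r ^ 2 * hb₂ - 2 * r * hb₄ - hb₆
  · intro h
    apply hr'
    apply mul_left_cancel₀ h4
    linear_combination 2 * W.a₁ * hy2 - 4 * h - 2 * r * hb₂ - 2 * hb₄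


theorem model_exists_two_torsion (h2 : (2 : K) ≠ 0) (hb₂ : W.b₂ = -4 * (r₀ + r₁ + r₂))
    (hb₄ : W.b₄ = 2 * (r₀ * r₁ + r₀ * r₂ + r₁ * r₂)) (hb₆ : W.b₆ = -4 * (r₀ * r₁ * r₂))
    (h01 : r₀ ≠ r₁) (h02 : r₀ ≠ r₂) (h12 : r₁ ≠ r₂) (x : K)
    (hx : x ^ 3 + -(4 * (r₁ - r₀) + 4 * (r₂ - r₀)) * x ^ 2 +
      4 * (r₁ - r₀) * (4 * (r₂ - r₀)) * x = 0) :
    ∃ T : W.Point, T ≠ 0 ∧ ptX W r₀ T = x ∧ ptY W T = 0 := by
  have h4 : (4 : K) ≠ 0 := by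
    have : (4 : K) = 2 * 2 := by norm_num
    rw [this]; exact mul_ne_zero h2 h2
  obtain ⟨r, hxr⟩ : ∃ r : K, x = 4 * (r - r₀) := ⟨x / 4 + r₀, by field_simp; ring⟩
  have hr : (r - r₀) * (r - r₁) * (r - r₂) = 0 := by
    have h64 : (64 : K) ≠ 0 := by
      have : (64 : K) = 4 * 4 * 4 := by norm_num
      rw [this]; exact mul_ne_zero (mul_ne_zero h4 h4) h4
    apply mul_left_cancel₀ h64
    rw [hxr] at hx
    linear_combination hx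
  have hr' : (r - r₀) * (r - r₁) + (r - r₀) * (r - r₂) + (r - r₁) * (r - r₂) ≠ 0 := by
    rcases mul_eq_zero.mp hr with h | h
    · rcases mul_eq_zero.mp h with h | h
      · have : r = r₀ := sub_eq_zero.mp h
        subst this
        simpa using mul_ne_zero (sub_ne_zero.mpr h01) (sub_ne_zero.mpr h02)
      · have : r = r₁ := sub_eq_zero.mp h
        subst this
        simpa using mul_ne_zero (sub_ne_zero.mpr h01.symm) (sub_ne_zero.mpr h12)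
    · have : r = r₂ := sub_eq_zero.mp h
      subst this
      simpa using mul_ne_zero (sub_ne_zero.mpr h02.symm) (sub_ne_zero.mpr h12.symm)
  refine ⟨.some r _ (nonsingular_of_root W r₀ r₁ r₂ h2 hb₂ hb₄ hb₆ r hr hr'),
    Point.some_ne_zero _, ?_, ?_⟩
  · rw [ptX_some, hxr]
  · rw [ptY_some]
    field_simp
    ring

theorem model_line [DecidableEq K] (hb₂ : W.b₂ = -4 * (r₀ + r₁ + r₂))
    (hb₄ : W.b₄ = 2 * (r₀ * r₁ + r₀ * r₂ + r₁ * r₂)) (hb₆ : W.b₆ = -4 * (r₀ * r₁ * r₂))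
    (P₁ P₂ P₃ : W.Point) (hP₁ : P₁ ≠ 0) (hP₂ : P₂ ≠ 0) (hP₃ : P₃ ≠ 0) (hsum : P₁ + P₂ + P₃ = 0) :
    ∃ l n : K, ptY W P₁ = l * ptX W r₀ P₁ + n ∧ ptY W P₂ = l * ptX W r₀ P₂ + n ∧
      ptY W P₃ = l * ptX W r₀ P₃ + n ∧
      ptX W r₀ P₁ + ptX W r₀ P₂ + ptX W r₀ P₃ = l ^ 2 - -(4 * (r₁ - r₀) + 4 * (r₂ - r₀)) ∧
      ptX W r₀ P₁ * ptX W r₀ P₂ + ptX W r₀ P₁ * ptX W r₀ P₃ + ptX W r₀ P₂ * ptX W r₀ P₃ =
        4 * (r₁ - r₀) * (4 * (r₂ - r₀)) - 2 * l * n ∧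
      ptX W r₀ P₁ * ptX W r₀ P₂ * ptX W r₀ P₃ = n ^ 2 := by
  have hP₃' : P₃ = -(P₁ + P₂) := by
    rw [eq_neg_iff_add_eq_zero, add_comm]; exact hsum
  rcases P₁ with _ | ⟨x₁, y₁, h₁⟩
  · exact absurd rfl hP₁
  rcases P₂ with _ | ⟨x₂, y₂, h₂⟩
  · exact absurd rfl hP₂
  have hxy : ¬(x₁ = x₂ ∧ y₁ = W.negY x₂ y₂) := by
    rintro ⟨hx, hy⟩
    apply hP₃
    rw [hP₃', Point.add_of_Y_eq hx hy, neg_zero]
  obtain ⟨ℓ, x₃, y₃, hx₃, hy₃, e₂, e₃, s₁, s₂, s₃⟩ := line_aux W h₁.1 h₂.1 hxy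
  have hP₃'' : P₃ = .some _ _ (nonsingular_negAdd h₁ h₂ hxy) := by
    rw [hP₃', Point.add_some hxy, Point.neg_some]
    simp only [addY, negY_negY]
  subst hP₃''
  simp only [ptX_some, ptY_some]
  rw [← hx₃, ← hy₃]
  have q₁ := h₁.1
  rw [equation_iff] at q₁
  simp only [WeierstrassCurve.b₂, WeierstrassCurve.b₄, WeierstrassCurve.b₆] at hb₂ hb₄ hb₆
  refine ⟨2 * ℓ + W.a₁, 4 * r₀ * (2 * ℓ + W.a₁) + 4 * (2 * (y₁ - ℓ * x₁) + W.a₃),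
    ?_, ?_, ?_, ?_, ?_, ?_⟩
  · ring
  · linear_combination 8 * e₂
  · linear_combination 8 * e₃
  · linear_combination 4 * s₁ - hb₂
  · linear_combination 16 * s₂ - 32 * r₀ * s₁ + 8 * hb₄ + 8 * r₀ * hb₂
  · linear_combination 64 * s₃ - 64 * r₀ * s₂ + 64 * r₀ ^ 2 * s₁ - 16 * hb₆ - 32 * r₀ * hb₄ -
      16 * r₀ ^ 2 * hb₂

end Fields

/-- **S05-W1.** The `Model` structure on the group of points of a Weierstrass curve whose
`2`-division cubic splits with distinct roots `r₀, r₁, r₂`. -/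
noncomputable def modelOfWeierstrass [DecidableEq K] (W : WeierstrassCurve.Affine K)
    (r₀ r₁ r₂ : K) (h2 : (2 : K) ≠ 0)
    (hb₂ : W.b₂ = -4 * (r₀ + r₁ + r₂)) (hb₄ : W.b₄ = 2 * (r₀ * r₁ + r₀ * r₂ + r₁ * r₂))
    (hb₆ : W.b₆ = -4 * (r₀ * r₁ * r₂))
    (h01 : r₀ ≠ r₁) (h02 : r₀ ≠ r₂) (h12 : r₁ ≠ r₂) :
    Model K (-(4 * (r₁ - r₀) + 4 * (r₂ - r₀))) (4 * (r₁ - r₀) * (4 * (r₂ - r₀))) W.Point where
  X := ptX W r₀
  Y := ptY W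
  eqn := model_eqn W r₀ r₁ r₂ hb₂ hb₄ hb₆
  X_neg P _ := model_X_neg W r₀ P
  Y_neg P _ := model_Y_neg W P
  ext := model_ext W r₀ h2
  exists_two_torsion := model_exists_two_torsion W r₀ r₁ r₂ h2 hb₂ hb₄ hb₆ h01 h02 h12
  line := model_line W r₀ r₁ r₂ hb₂ hb₄ hb₆

section Simp

variable [DecidableEq K] (W : WeierstrassCurve.Affine K) (r₀ r₁ r₂ : K) (h2 : (2 : K) ≠ 0)
    (hb₂ : W.b₂ = -4 * (r₀ + r₁ + r₂)) (hb₄ : W.b₄ = 2 * (r₀ * r₁ + r₀ * r₂ + r₁ * r₂))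
    (hb₆ : W.b₆ = -4 * (r₀ * r₁ * r₂))
    (h01 : r₀ ≠ r₁) (h02 : r₀ ≠ r₂) (h12 : r₁ ≠ r₂)

@[simp] theorem modelOfWeierstrass_X_zero :
    (modelOfWeierstrass W r₀ r₁ r₂ h2 hb₂ hb₄ hb₆ h01 h02 h12).X 0 = 0 := rfl

@[simp] theorem modelOfWeierstrass_Y_zero :
    (modelOfWeierstrass W r₀ r₁ r₂ h2 hb₂ hb₄ hb₆ h01 h02 h12).Y 0 = 0 := rfl

@[simp] theorem modelOfWeierstrass_X_some {x y : K} (h : W.Nonsingular x y) :
    (modelOfWeierstrass W r₀ r₁ r₂ h2 hb₂ hb₄ hb₆ h01 h02 h12).X (.some x y h) = 4 * (x - r₀) :=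
  rfl

@[simp] theorem modelOfWeierstrass_Y_some {x y : K} (h : W.Nonsingular x y) :
    (modelOfWeierstrass W r₀ r₁ r₂ h2 hb₂ hb₄ hb₆ h01 h02 h12).Y (.some x y h) =
      4 * (2 * y + W.a₁ * x + W.a₃) :=
  rfl

end Simp

end Fermat.Agent.S05
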