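import Fermat.Agent.S05.Model

/-!
# S05, Lemma T: torsion points of order prime to the residue characteristic are integral

For a point `P` with `1 < v (X P)` put `u R = X P / X R` (and `u 0 = 0`).  The `x`-only addition
formulas show that `u (k • P)` is integral and congruent to `k ^ 2` modulo the maximal ideal.
Hence `n • P = 0` forces `v n < 1`.
-/

namespace Fermat.Agent.S05

namespace Model

section Val

variable {K : Type*} [Field K] {Γ₀ : Type*} [LinearOrderedCommGroupWithZero Γ₀]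
  (v : Valuation K Γ₀)

/-- A root of a monic quadratic polynomial with integral coefficients is integral. -/
theorem val_le_one_of_sq_eq {t S Q : K} (h : t ^ 2 = S * t - Q) (hS : v S ≤ 1) (hQ : v Q ≤ 1) :
    v t ≤ 1 := by
  by_contra hlt
  have hlt' : 1 < v t := not_le.mp hlt
  have h1 : v (t ^ 2) = v t * v t := by rw [sq, map_mul]
  have h2 : v (S * t - Q) ≤ max (v (S * t)) (v Q) := Valuation.map_sub _ _ _
  have h3 : v (S * t) ≤ v t := by
    rw [map_mul]; exact mul_le_of_le_one_left' hS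
  have h4 : v t < v t * v t := lt_mul_self hlt'
  have h5 : v t * v t ≤ v t := by
    rw [← h1, h]
    exact h2.trans (max_le h3 (hQ.trans hlt'.le))
  exact absurd h4 (not_lt.mpr h5)

theorem val_eps_mul_lt_one {e t : K} (he : v e < 1) (ht : v t ≤ 1) : v (e * t) < 1 := by
  rw [map_mul]; exact mul_lt_one_of_lt_of_le he ht

theorem mem_aux1 {a b c e : K} (ha : a ∈ v.integer) (hb : b ∈ v.integer) (hc : c ∈ v.integer)
    (he : e ∈ v.integer) :
    2 * (1 + c) * (1 + b * c * e ^ 2) + 4 * a * c * e ∈ v.integer := by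
  aesop

theorem mem_aux2 {a b c e : K} (ha : a ∈ v.integer) (hb : b ∈ v.integer) (hc : c ∈ v.integer)
    (he : e ∈ v.integer) :
    2 * (1 + c) * (3 * b * c * e - b ^ 2 * c ^ 2 * e ^ 3) + 4 * a * c ∈ v.integer := by
  aesop

theorem mem_aux3 {a b e : K} (ha : a ∈ v.integer) (hb : b ∈ v.integer) (he : e ∈ v.integer) :
    4 * (1 + a * e + b * e ^ 2) ∈ v.integer := by
  aesop

theorem mem_aux4 {a b e : K} (ha : a ∈ v.integer) (hb : b ∈ v.integer) (he : e ∈ v.integer) :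
    4 * (a + 3 * b * e - b ^ 2 * e ^ 3) ∈ v.integer := by
  aesop

/-- Valuation estimates in the generic case of the parallelogram law. -/
theorem val_generic {a b c e cp cm : K} (ha : v a ≤ 1) (hb : v b ≤ 1) (hc : v c ≤ 1)
    (he : v e < 1)
    (I1 : (cp + cm) * (1 - b * c * e ^ 2) ^ 2
      = 2 * (1 + c) * (1 + b * c * e ^ 2) + 4 * a * c * e)
    (I2 : cp * cm * (1 - b * c * e ^ 2) ^ 2 = (1 - c) ^ 2) :
    v cp ≤ 1 ∧ v cm ≤ 1 ∧ v (cp + cm - 2 * c - 2) < 1 := by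
  have ha' : a ∈ v.integer := ha
  have hb' : b ∈ v.integer := hb
  have hc' : c ∈ v.integer := hc
  have he' : e ∈ v.integer := he.le
  have hd : v ((1 - b * c * e ^ 2) ^ 2) = 1 := by
    have h1 : v (b * c * e ^ 2) < 1 := by
      have h2 : b * c * e ^ 2 = e * (b * c * e) := by ring
      rw [h2]
      exact val_eps_mul_lt_one v he (mul_mem (mul_mem hb' hc') he')
    rw [map_pow, Valuation.map_one_sub_of_lt v h1, one_pow]
  have hS : v (cp + cm) ≤ 1 := by
    have h1 : v (cp + cm) = v ((cp + cm) * (1 - b * c * e ^ 2) ^ 2) := by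
      rw [map_mul, hd, mul_one]
    rw [h1, I1]
    exact mem_aux1 v ha' hb' hc' he'
  have hQ : v (cp * cm) ≤ 1 := by
    have h1 : v (cp * cm) = v (cp * cm * (1 - b * c * e ^ 2) ^ 2) := by
      rw [map_mul (f := v) (cp * cm), hd, mul_one]
    rw [h1, I2]
    exact pow_mem (sub_mem (one_mem _) hc') 2
  have hdiff : v (cp + cm - 2 * c - 2) < 1 := by
    have h1 : v (cp + cm - 2 * c - 2)
        = v ((cp + cm - 2 * c - 2) * (1 - b * c * e ^ 2) ^ 2) := by
      rw [map_mul, hd, mul_one]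
    have h2 : (cp + cm - 2 * c - 2) * (1 - b * c * e ^ 2) ^ 2
        = e * (2 * (1 + c) * (3 * b * c * e - b ^ 2 * c ^ 2 * e ^ 3) + 4 * a * c) := by
      linear_combination I1
    rw [h1, h2]
    exact val_eps_mul_lt_one v he (mem_aux2 v ha' hb' hc' he')
  exact ⟨val_le_one_of_sq_eq v (S := cp + cm) (Q := cp * cm) (by ring) hS hQ,
    val_le_one_of_sq_eq v (S := cp + cm) (Q := cp * cm) (by ring) hS hQ, hdiff⟩

/-- Valuation estimates for the duplication formula. -/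
theorem val_double {a b e c2 : K} (ha : v a ≤ 1) (hb : v b ≤ 1) (he : v e < 1)
    (I : c2 * (1 - b * e ^ 2) ^ 2 = 4 * (1 + a * e + b * e ^ 2)) :
    v c2 ≤ 1 ∧ v (c2 - 4) < 1 := by
  have ha' : a ∈ v.integer := ha
  have hb' : b ∈ v.integer := hb
  have he' : e ∈ v.integer := he.le
  have hd : v ((1 - b * e ^ 2) ^ 2) = 1 := by
    have h1 : v (b * e ^ 2) < 1 := by
      have h2 : b * e ^ 2 = e * (b * e) := by ring
      rw [h2]
      exact val_eps_mul_lt_one v he (mul_mem hb' he')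
    rw [map_pow, Valuation.map_one_sub_of_lt v h1, one_pow]
  constructor
  · have h1 : v c2 = v (c2 * (1 - b * e ^ 2) ^ 2) := by rw [map_mul, hd, mul_one]
    rw [h1, I]
    exact mem_aux3 v ha' hb' he'
  · have h1 : v (c2 - 4) = v ((c2 - 4) * (1 - b * e ^ 2) ^ 2) := by rw [map_mul, hd, mul_one]
    have h2 : (c2 - 4) * (1 - b * e ^ 2) ^ 2 = e * (4 * (a + 3 * b * e - b ^ 2 * e ^ 3)) := by
      linear_combination I
    rw [h1, h2]
    exact val_eps_mul_lt_one v he (mem_aux4 v ha' hb' he')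

end Val

section Alg

variable {K : Type*} [Field K]

/-- The `x`-only formulas for `X (R + P)` and `X (R - P)`. -/
theorem addsub_formulas {a b X1 x Xp Xm Y1 Y2 l n l' n' : K}
    (hY1 : Y1 ^ 2 = X1 ^ 3 + a * X1 ^ 2 + b * X1)
    (hY2 : Y2 ^ 2 = x ^ 3 + a * x ^ 2 + b * x)
    (h1 : Y1 = l * X1 + n) (h2 : Y2 = l * x + n) (h3 : X1 + x + Xp = l ^ 2 - a)
    (h1' : Y1 = l' * X1 + n') (h2' : -Y2 = l' * x + n') (h3' : X1 + x + Xm = l' ^ 2 - a)
    (hne : X1 ≠ x) :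
    (Xp + Xm) * (X1 - x) ^ 2 = 2 * (X1 + x) * (X1 * x + b) + 4 * a * X1 * x ∧
    Xp * Xm * (X1 - x) ^ 2 = (X1 * x - b) ^ 2 := by
  have hl : l * (X1 - x) = Y1 - Y2 := by linear_combination h2 - h1
  have hl' : l' * (X1 - x) = Y1 + Y2 := by linear_combination h2' - h1'
  have hp : (X1 - x) ^ 2 * Xp = (Y1 - Y2) ^ 2 - (X1 - x) ^ 2 * (a + X1 + x) := by
    linear_combination (X1 - x) ^ 2 * h3 + (l * (X1 - x) + (Y1 - Y2)) * hl
  have hm : (X1 - x) ^ 2 * Xm = (Y1 + Y2) ^ 2 - (X1 - x) ^ 2 * (a + X1 + x) := by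
    linear_combination (X1 - x) ^ 2 * h3' + (l' * (X1 - x) + (Y1 + Y2)) * hl'
  refine ⟨by linear_combination hp + hm + 2 * hY1 + 2 * hY2, ?_⟩
  have key : ((X1 - x) ^ 2 * Xp) * ((X1 - x) ^ 2 * Xm) =
      (Y1 ^ 2 - Y2 ^ 2) ^ 2 - 2 * (X1 - x) ^ 2 * (a + X1 + x) * (Y1 ^ 2 + Y2 ^ 2)
        + (X1 - x) ^ 4 * (a + X1 + x) ^ 2 := by
    rw [hp, hm]; ring
  rw [hY1, hY2] at key
  have hD : (X1 - x) ^ 2 ≠ 0 := pow_ne_zero 2 (sub_ne_zero.mpr hne)
  apply mul_left_cancel₀ hD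
  linear_combination key

/-- The formulas of `addsub_formulas` in the coordinates `u = x / X`. -/
theorem u_formulas {a b X1 x Xp Xm c e cp cm : K}
    (F1 : (Xp + Xm) * (X1 - x) ^ 2 = 2 * (X1 + x) * (X1 * x + b) + 4 * a * X1 * x)
    (F2 : Xp * Xm * (X1 - x) ^ 2 = (X1 * x - b) ^ 2)
    (hc : c * X1 = x) (he : e * x = 1) (hcp : cp * Xp = x) (hcm : cm * Xm = x) :
    (cp + cm) * (1 - b * c * e ^ 2) ^ 2 = 2 * (1 + c) * (1 + b * c * e ^ 2) + 4 * a * c * e ∧
    cp * cm * (1 - b * c * e ^ 2) ^ 2 = (1 - c) ^ 2 := by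
  have hx : x ≠ 0 := right_ne_zero_of_mul_eq_one he
  have hXp : Xp ≠ 0 := by rintro rfl; simp at hcp; exact hx hcp.symm
  have hXm : Xm ≠ 0 := by rintro rfl; simp at hcm; exact hx hcm.symm
  have hX1 : X1 ≠ 0 := by rintro rfl; simp at hc; exact hx hc.symm
  obtain rfl : e = x⁻¹ := eq_inv_of_mul_eq_one_left he
  obtain rfl : c = x / X1 := by field_simp; exact hc
  obtain rfl : cp = x / Xp := by field_simp; exact hcp
  obtain rfl : cm = x / Xm := by field_simp; exact hcm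
  constructor
  · field_simp
    linear_combination (-(Xm + Xp)) * F2 + Xp * Xm * F1
  · field_simp
    linear_combination -F2

/-- The duplication formula from the Vieta relations of the tangent line. -/
theorem double_formula {a b x X2 l n : K}
    (h3 : x + x + X2 = l ^ 2 - a) (h4 : x * x + x * X2 + x * X2 = b - 2 * l * n)
    (h5 : x * x * X2 = n ^ 2) :
    X2 * (4 * (x ^ 3 + a * x ^ 2 + b * x)) = (x ^ 2 - b) ^ 2 := by
  linear_combination (4 * x ^ 2 * X2) * h3 + 4 * l ^ 2 * h5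
    + (2 * l * n - x ^ 2 - 2 * x * X2 + b) * h4

theorem u_double_formula {a b x X2 e c2 : K}
    (F : X2 * (4 * (x ^ 3 + a * x ^ 2 + b * x)) = (x ^ 2 - b) ^ 2)
    (he : e * x = 1) (hc2 : c2 * X2 = x) :
    c2 * (1 - b * e ^ 2) ^ 2 = 4 * (1 + a * e + b * e ^ 2) := by
  have hx : x ≠ 0 := right_ne_zero_of_mul_eq_one he
  have hX2 : X2 ≠ 0 := by rintro rfl; simp at hc2; exact hx hc2.symm
  obtain rfl : e = x⁻¹ := eq_inv_of_mul_eq_one_left he
  obtain rfl : c2 = x / X2 := by field_simp; exact hc2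
  field_simp
  linear_combination -F

end Alg

section Main

variable {K : Type*} [Field K] {Γ₀ : Type*} [LinearOrderedCommGroupWithZero Γ₀]
  (v : Valuation K Γ₀) {a b : K} {G : Type*} [AddCommGroup G] (M : Model K a b G)

/-- `Rel x R c` says that `c` is the coordinate `u R = x / X R` (and `u 0 = 0`). -/
def Rel (x : K) (R : G) (c : K) : Prop := (R = 0 ∧ c = 0) ∨ (R ≠ 0 ∧ c * M.X R = x)

variable {M}

theorem Rel.unique {x : K} (hx : x ≠ 0) {R : G} {c c' : K} (h : M.Rel x R c) (h' : M.Rel x R c') :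
    c = c' := by
  rcases h with ⟨h0, rfl⟩ | ⟨h0, hc⟩
  · rcases h' with ⟨_, rfl⟩ | ⟨h0', _⟩
    · rfl
    · exact absurd h0 h0'
  · rcases h' with ⟨h0', _⟩ | ⟨_, hc'⟩
    · exact absurd h0' h0
    · have hX : M.X R ≠ 0 := by
        intro hX; rw [hX, mul_zero] at hc; exact hx hc.symm
      exact mul_right_cancel₀ hX (hc.trans hc'.symm)

theorem Rel.neg {x : K} {R : G} {c : K} (h : M.Rel x R c) : M.Rel x (-R) c := by
  rcases h with ⟨rfl, rfl⟩ | ⟨h0, hc⟩
  · exact Or.inl ⟨neg_zero, rfl⟩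
  · exact Or.inr ⟨neg_ne_zero.mpr h0, by rw [M.X_neg R h0]; exact hc⟩

variable (M)

include M in
/-- The coordinate `u (P + P)` is congruent to `4`. -/
theorem rel_double (ha : v a ≤ 1) (hb : v b ≤ 1) {P : G} (hP : P ≠ 0) (hx : 1 < v (M.X P)) :
    ∃ c2, M.Rel (M.X P) (P + P) c2 ∧ v c2 ≤ 1 ∧ v (c2 - 4) < 1 := by
  have hx0 : M.X P ≠ 0 := by
    intro h0; rw [h0, map_zero] at hx; exact absurd hx (not_lt.mpr zero_le_one)
  have hex : (M.X P)⁻¹ * M.X P = 1 := inv_mul_cancel₀ hx0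
  have he : v (M.X P)⁻¹ < 1 := by rw [map_inv₀]; exact inv_lt_one_of_one_lt₀ hx
  have hunit : v (1 + (M.X P)⁻¹ * (a + b * (M.X P)⁻¹)) = 1 := by
    apply Valuation.map_one_add_of_lt
    exact val_eps_mul_lt_one v he
      (add_mem (s := v.integer) ha (mul_mem (s := v.integer) hb he.le))
  have hcub : M.X P ^ 3 + a * M.X P ^ 2 + b * M.X P
      = M.X P ^ 3 * (1 + (M.X P)⁻¹ * (a + b * (M.X P)⁻¹)) := by
    field_simp
    ring
  have hcub0 : M.X P ^ 3 + a * M.X P ^ 2 + b * M.X P ≠ 0 := by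
    rw [hcub]
    refine mul_ne_zero (pow_ne_zero 3 hx0) ?_
    intro h0; rw [h0, map_zero] at hunit; exact zero_ne_one hunit
  by_cases h2 : P + P = 0
  · refine ⟨0, Or.inl ⟨h2, rfl⟩, by simp, ?_⟩
    have hneg : -P = P := neg_eq_of_add_eq_zero_left h2
    have hy := M.Y_neg P hP
    rw [hneg] at hy
    have h4 : (4 : K) * (M.X P ^ 3 + a * M.X P ^ 2 + b * M.X P) = 0 := by
      rw [← M.eqn P hP]
      linear_combination (2 * M.Y P) * hy
    have h4' : (4 : K) = 0 := (mul_eq_zero.mp h4).resolve_right hcub0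
    rw [zero_sub, Valuation.map_neg, h4', map_zero]
    exact zero_lt_one
  · obtain ⟨l, n, -, -, -, h3, h4, h5⟩ := M.line_add hP hP h2
    have F := double_formula h3 h4 h5
    have hX2 : M.X (P + P) ≠ 0 := by
      intro h0
      rw [h0, zero_mul] at F
      have hb' : M.X P ^ 2 = b := by
        have := pow_eq_zero_iff (two_ne_zero) |>.mp F.symm
        linear_combination this
      have : v (M.X P ^ 2) ≤ 1 := by rw [hb']; exact hb
      rw [map_pow] at this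
      exact absurd (one_lt_pow₀ hx two_ne_zero) (not_lt.mpr this)
    have hc2 : M.X P / M.X (P + P) * M.X (P + P) = M.X P := div_mul_cancel₀ _ hX2
    obtain ⟨h1, h2'⟩ := val_double v ha hb he (u_double_formula F hex hc2)
    exact ⟨_, Or.inr ⟨h2, hc2⟩, h1, h2'⟩

include M in
/-- The parallelogram law modulo the maximal ideal. -/
theorem rel_step (ha : v a ≤ 1) (hb : v b ≤ 1) {P : G} (hP : P ≠ 0) (hx : 1 < v (M.X P))
    {R : G} {c : K} (h : M.Rel (M.X P) R c) (hc : v c ≤ 1) :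
    ∃ cp cm, M.Rel (M.X P) (R + P) cp ∧ M.Rel (M.X P) (R - P) cm ∧ v cp ≤ 1 ∧ v cm ≤ 1 ∧
      v (cp + cm - 2 * c - 2) < 1 := by
  have hx0 : M.X P ≠ 0 := by
    intro h0; rw [h0, map_zero] at hx; exact absurd hx (not_lt.mpr zero_le_one)
  have hex : (M.X P)⁻¹ * M.X P = 1 := inv_mul_cancel₀ hx0
  have he : v (M.X P)⁻¹ < 1 := by rw [map_inv₀]; exact inv_lt_one_of_one_lt₀ hx
  have hPP : M.Rel (M.X P) P 1 := Or.inr ⟨hP, one_mul _⟩
  rcases h with ⟨rfl, rfl⟩ | ⟨hR, hcR⟩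
  · refine ⟨1, 1, by rw [zero_add]; exact hPP, by rw [zero_sub]; exact hPP.neg, by simp, by simp,
      ?_⟩
    have : (1 : K) + 1 - 2 * 0 - 2 = 0 := by ring
    rw [this, map_zero]; exact zero_lt_one
  by_cases hRP : R = P
  · obtain ⟨c2, hrel, h1, h2⟩ := M.rel_double v ha hb hP hx
    have hc1 : c = 1 := by
      rw [hRP] at hcR
      exact mul_right_cancel₀ hx0 (hcR.trans (one_mul _).symm)
    refine ⟨c2, 0, by rw [hRP]; exact hrel, Or.inl ⟨by rw [hRP, sub_self], rfl⟩, h1, by simp, ?_⟩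
    have : c2 + 0 - 2 * c - 2 = c2 - 4 := by rw [hc1]; ring
    rw [this]; exact h2
  by_cases hRP' : R = -P
  · obtain ⟨c2, hrel, h1, h2⟩ := M.rel_double v ha hb hP hx
    have hc1 : c = 1 := by
      rw [hRP', M.X_neg P hP] at hcR
      exact mul_right_cancel₀ hx0 (hcR.trans (one_mul _).symm)
    refine ⟨0, c2, Or.inl ⟨by rw [hRP', neg_add_cancel], rfl⟩, ?_, by simp, h1, ?_⟩
    · have : R - P = -(P + P) := by rw [hRP']; abel
      rw [this]; exact hrel.neg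
    · have : 0 + c2 - 2 * c - 2 = c2 - 4 := by rw [hc1]; ring
      rw [this]; exact h2
  -- generic case
  have hne : M.X R ≠ M.X P := by
    intro hX
    have hY : M.Y R ^ 2 = M.Y P ^ 2 := by rw [M.eqn R hR, M.eqn P hP, hX]
    rcases sq_eq_sq_iff_eq_or_eq_neg.mp hY with hY | hY
    · exact hRP (M.ext R P hR hP hX hY)
    · refine hRP' (M.ext R (-P) hR (neg_ne_zero.mpr hP) ?_ ?_)
      · rw [M.X_neg P hP]; exact hX
      · rw [M.Y_neg P hP]; exact hY
  have hsum : R + P ≠ 0 := fun h0 => hRP' (eq_neg_of_add_eq_zero_left h0)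
  have hdif : R + -P ≠ 0 := fun h0 => hRP (by rwa [← sub_eq_add_neg, sub_eq_zero] at h0)
  obtain ⟨l, n, h1, h2, -, h3, -, -⟩ := M.line_add hR hP hsum
  obtain ⟨l', n', h1', h2', -, h3', -, -⟩ := M.line_add hR (neg_ne_zero.mpr hP) hdif
  rw [M.Y_neg P hP, M.X_neg P hP] at h2'
  rw [M.X_neg P hP] at h3'
  obtain ⟨F1, F2⟩ := addsub_formulas (M.eqn R hR) (M.eqn P hP) h1 h2 h3 h1' h2' h3' hne
  have hvR : v (M.X P) ≤ v (M.X R) := by
    rw [← hcR, map_mul]; exact mul_le_of_le_one_left' hc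
  have hprod : M.X R * M.X P - b ≠ 0 := by
    intro h0
    have hb' : M.X R * M.X P = b := sub_eq_zero.mp h0
    have h1 : v (M.X R * M.X P) ≤ 1 := by rw [hb']; exact hb
    rw [map_mul] at h1
    exact absurd (one_lt_mul'' (hx.trans_le hvR) hx) (not_lt.mpr h1)
  have hXX : M.X (R + P) * M.X (R + -P) ≠ 0 := by
    intro h0
    rw [h0, zero_mul] at F2
    exact hprod (pow_eq_zero_iff two_ne_zero |>.mp F2.symm)
  have hXp : M.X (R + P) ≠ 0 := left_ne_zero_of_mul hXX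
  have hXm : M.X (R + -P) ≠ 0 := right_ne_zero_of_mul hXX
  have hcp : M.X P / M.X (R + P) * M.X (R + P) = M.X P := div_mul_cancel₀ _ hXp
  have hcm : M.X P / M.X (R + -P) * M.X (R + -P) = M.X P := div_mul_cancel₀ _ hXm
  obtain ⟨I1, I2⟩ := u_formulas F1 F2 hcR hex hcp hcm
  obtain ⟨g1, g2, g3⟩ := val_generic v ha hb hc he I1 I2
  exact ⟨_, _, Or.inr ⟨hsum, hcp⟩, by rw [sub_eq_add_neg]; exact Or.inr ⟨hdif, hcm⟩, g1, g2, g3⟩

include M in
theorem rel_nsmul (ha : v a ≤ 1) (hb : v b ≤ 1) {P : G} (hP : P ≠ 0) (hx : 1 < v (M.X P))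
    (k : ℕ) :
    (∃ c, M.Rel (M.X P) (k • P) c ∧ v c ≤ 1 ∧ v (c - (k : K) ^ 2) < 1) ∧
    (∃ c, M.Rel (M.X P) ((k + 1) • P) c ∧ v c ≤ 1 ∧ v (c - ((k + 1 : ℕ) : K) ^ 2) < 1) := by
  have hx0 : M.X P ≠ 0 := by
    intro h0; rw [h0, map_zero] at hx; exact absurd hx (not_lt.mpr zero_le_one)
  induction k with
  | zero =>
    refine ⟨⟨0, Or.inl ⟨zero_nsmul P, rfl⟩, by simp, by simp⟩,
      ⟨1, Or.inr ⟨by simpa using hP, by simp⟩, by simp, by simp⟩⟩
  | succ k ih =>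
    obtain ⟨⟨c0, r0, v0, w0⟩, ⟨c1, r1, v1, w1⟩⟩ := ih
    refine ⟨⟨c1, r1, v1, w1⟩, ?_⟩
    obtain ⟨cp, cm, rp, rm, vp, -, w⟩ := M.rel_step v ha hb hP hx r1 v1
    have e1 : (k + 1) • P + P = (k + 1 + 1) • P := (succ_nsmul P (k + 1)).symm
    have e2 : (k + 1) • P - P = k • P := by rw [succ_nsmul]; abel
    rw [e1] at rp
    rw [e2] at rm
    obtain rfl : cm = c0 := rm.unique hx0 r0
    refine ⟨cp, rp, vp, ?_⟩
    have key : cp - ((k + 1 + 1 : ℕ) : K) ^ 2
        = (cp + cm - 2 * c1 - 2) + 2 * (c1 - ((k + 1 : ℕ) : K) ^ 2) - (cm - (k : K) ^ 2) := by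
      push_cast; ring
    rw [key]
    refine Valuation.map_sub_lt v (Valuation.map_add_lt v w ?_) w0
    rw [mul_comm]
    exact val_eps_mul_lt_one v w1 (show (2 : K) ∈ v.integer from ofNat_mem _ 2)

include M in
/-- **Lemma T.**  A nonzero point killed by an integer `n` which is a unit for `v` has an
integral `X`-coordinate. -/
theorem integral_of_torsion (ha : v a ≤ 1) (hb : v b ≤ 1) {n : ℕ} (hn : v (n : K) = 1) {P : G}
    (hP : P ≠ 0) (hnP : n • P = 0) : v (M.X P) ≤ 1 := by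
  by_contra hlt
  have hx : 1 < v (M.X P) := not_le.mp hlt
  obtain ⟨⟨c, r, -, w⟩, -⟩ := M.rel_nsmul v ha hb hP hx n
  rw [hnP] at r
  have hc : c = 0 := by
    rcases r with ⟨_, rfl⟩ | ⟨h0, _⟩
    · rfl
    · exact absurd rfl h0
  rw [hc, zero_sub, Valuation.map_neg, map_pow, hn, one_pow] at w
  exact lt_irrefl _ w

end Main

end Model

end Fermat.Agent.S05
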