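import Fermat.Prelude.Def_FLTPrelim_FreyPackage
import Fermat.Prelude.Def_FLTPrelim_GaloisRep
import Fermat.Prelude.Def_FLTPrelim_Ramification
import Fermat.Agent.S05.ModelOfWeierstrass
import Fermat.Agent.S05.Inertia
import Fermat.Agent.S05.Torsion
import Fermat.Agent.S05.Fixed

set_option autoImplicit false

open WeierstrassCurve WeierstrassCurve.Affine WeierstrassCurve.Affine.Point

namespace Fermat.Agent.S05

local notation "Qbar" => AlgebraicClosure ℚ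

/-- General glue: a curve over `ℚ` whose `2`-division polynomial splits with roots `r₀ r₁ r₂`,
with the valuation hypotheses of `Model.fixed_of_inertia`. -/
theorem smul_eq_of_roots (E : WeierstrassCurve ℚ) (A : ValuationSubring Qbar)
    {σ : Qbar ≃ₐ[ℚ] Qbar} (hσ : σ ∈ A.inertiaSubgroupIn ℚ)
    (r₀ r₁ r₂ z : Qbar) (hσr : σ r₀ = r₀) (hσz : σ z = z)
    (hb₂ : (E⁄Qbar).b₂ = -4 * (r₀ + r₁ + r₂))
    (hb₄ : (E⁄Qbar).b₄ = 2 * (r₀ * r₁ + r₀ * r₂ + r₁ * r₂))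
    (hb₆ : (E⁄Qbar).b₆ = -4 * (r₀ * r₁ * r₂))
    (he : A.valuation (4 * (r₁ - r₀)) = 1)
    (he'0 : 4 * (r₂ - r₀) ≠ 0)
    (hz1 : A.valuation z ≤ 1)
    (hee' : A.valuation (4 * (r₁ - r₀) - 4 * (r₂ - r₀)) = 1)
    (h2 : A.valuation (2 : Qbar) = 1) {p : ℕ} (hp : Odd p) (hpv : A.valuation (p : Qbar) = 1)
    (hz : A.valuation (4 * (r₂ - r₀)) = A.valuation z ^ p)
    (x : (E⁄Qbar).Point) (hx : p • x = 0) : σ • x = x := by
  have h2' : (2 : Qbar) ≠ 0 := two_ne_zero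
  have h01 : r₀ ≠ r₁ := by
    rintro rfl
    simp at he
  have h02 : r₀ ≠ r₂ := by
    rintro rfl
    simp at he'0
  have h12 : r₁ ≠ r₂ := by
    rintro rfl
    simp at hee'
  let M := modelOfWeierstrass (E⁄Qbar) r₀ r₁ r₂ h2' hb₂ hb₄ hb₆ h01 h02 h12
  have he' : A.valuation (4 * (r₂ - r₀)) ≤ 1 := by
    rw [hz]; exact pow_le_one' hz1 p
  obtain ⟨s, hs⟩ : ∃ s : Qbar, s ^ 2 = -(4 * (r₁ - r₀) + 4 * (r₂ - r₀)) :=
    IsAlgClosed.exists_pow_nat_eq _ (by norm_num)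
  have hint : ∀ P : (E⁄Qbar).Point, P ≠ 0 → (2 * p) • P = 0 → A.valuation (M.X P) ≤ 1 := by
    intro P hP hP2
    refine M.integral_of_torsion A.valuation ?_ ?_ (n := 2 * p) ?_ hP hP2
    · rw [Valuation.map_neg]
      exact (A.valuation.map_add _ _).trans (max_le he.le he')
    · rw [map_mul, he, one_mul]; exact he'
    · push_cast
      rw [map_mul, h2, hpv, one_mul]
  have key := M.fixed_of_inertia A.valuation he he' he'0 hee' h2 hp hint z hz s hs
    (σ : Qbar →+* Qbar)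
    (fun y hy => inertia_valuation_sub_lt_one A hσ hy) hσz
    (Point.map (W' := E) σ.toAlgHom) ?_ ?_ ?_ hx
  · exact key
  · intro P hP h
    exact hP (Point.map_injective (W' := E) σ.toAlgHom (h.trans (_root_.map_zero _).symm))
  · intro P hP
    cases P with
    | zero => exact absurd rfl hP
    | some x y h =>
      rw [Point.map_some]
      show 4 * (σ x - r₀) = σ (4 * (x - r₀))
      rw [map_mul, map_sub, hσr, map_ofNat]
  · intro P hP
    cases P with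
    | zero => exact absurd rfl hP
    | some x y h =>
      rw [Point.map_some]
      show 4 * (2 * σ y + (E⁄Qbar).a₁ * σ x + (E⁄Qbar).a₃) =
        σ (4 * (2 * y + (E⁄Qbar).a₁ * x + (E⁄Qbar).a₃))
      have h1 : σ (E⁄Qbar).a₁ = (E⁄Qbar).a₁ := σ.commutes E.a₁
      have h3 : σ (E⁄Qbar).a₃ = (E⁄Qbar).a₃ := σ.commutes E.a₃
      rw [map_mul, map_add, map_add, map_mul, map_mul, h1, h3, map_ofNat, map_ofNat]


theorem frey_b₂ (P : FreyPackage) :
    (P.freyCurve⁄Qbar).b₂ = (P.b : Qbar) ^ P.p - (P.a : Qbar) ^ P.p := by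
  simp only [WeierstrassCurve.b₂, FreyPackage.freyCurve, WeierstrassCurve.baseChange, WeierstrassCurve.map]
  simp
  ring

theorem frey_b₄ (P : FreyPackage) :
    (P.freyCurve⁄Qbar).b₄ = -((P.a : Qbar) ^ P.p * (P.b : Qbar) ^ P.p) / 8 := by
  simp only [WeierstrassCurve.b₄, FreyPackage.freyCurve, WeierstrassCurve.baseChange, WeierstrassCurve.map]
  simp
  ring

theorem frey_b₆ (P : FreyPackage) :
    (P.freyCurve⁄Qbar).b₆ = 0 := by
  simp only [WeierstrassCurve.b₆, FreyPackage.freyCurve, WeierstrassCurve.baseChange, WeierstrassCurve.map]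
  simp

theorem not_dvd_of_gcd_eq_one {q : ℕ} (hq : q.Prime) {m n : ℤ} (h : gcd m n = 1)
    (hm : (q : ℤ) ∣ m) : ¬ (q : ℤ) ∣ n := by
  intro hn
  have h1 : (q : ℤ) ∣ 1 := h ▸ dvd_gcd hm hn
  have h2 : q ∣ 1 := by exact_mod_cast h1
  exact hq.one_lt.ne' (Nat.dvd_one.mp h2)

theorem frey_fixed (P : FreyPackage) {q : ℕ} (hq : q.Prime) (hq2 : q ≠ 2) (hqp : q ≠ P.p)
    (A : ValuationSubring Qbar) (hA : A.LiesOverPrime q)
    {σ : Qbar ≃ₐ[ℚ] Qbar} (hσ : σ ∈ A.inertiaSubgroupIn ℚ)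
    (x : (P.freyCurve⁄Qbar).Point) (hx : P.p • x = 0) : σ • x = x := by
  have hv1 : ∀ n : ℤ, ¬ (q : ℤ) ∣ n → A.valuation (n : Qbar) = 1 :=
    fun n hn => valuation_intCast_eq_one A hq hA hn
  have hvle : ∀ n : ℤ, A.valuation (n : Qbar) ≤ 1 := by
    intro n
    by_cases hn : (q : ℤ) ∣ n
    · exact (valuation_intCast_lt_one A hA hn).le
    · exact (hv1 n hn).le
  have h2 : A.valuation (2 : Qbar) = 1 := by
    have := hv1 2 (by
      intro h
      have h' : q ∣ 2 := by exact_mod_cast h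
      exact hq2 ((Nat.prime_dvd_prime_iff_eq hq Nat.prime_two).mp h'))
    simpa using this
  have hpv : A.valuation (P.p : Qbar) = 1 := by
    have := hv1 (P.p : ℤ) (by
      intro h
      have h' : q ∣ P.p := by exact_mod_cast h
      exact hqp ((Nat.prime_dvd_prime_iff_eq hq P.pp).mp h'))
    simpa using this
  have hσint : ∀ n : ℤ, σ (n : Qbar) = n := fun n => map_intCast σ n
  have hFLT : (P.a : Qbar) ^ P.p + (P.b : Qbar) ^ P.p = (P.c : Qbar) ^ P.p := by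
    exact_mod_cast congrArg (Int.cast : ℤ → Qbar) P.hFLT
  have ha0 : (P.a : Qbar) ≠ 0 := by exact_mod_cast P.ha0
  have hb0 : (P.b : Qbar) ≠ 0 := by exact_mod_cast P.hb0
  have hc0 : (P.c : Qbar) ≠ 0 := by exact_mod_cast P.hc0
  have hb₂ := frey_b₂ P
  have hb₄ := frey_b₄ P
  have hb₆ := frey_b₆ P
  set a : Qbar := (P.a : Qbar) with ha
  set b : Qbar := (P.b : Qbar) with hb
  set c : Qbar := (P.c : Qbar) with hc
  set p := P.p with hp
  by_cases hqa : (q : ℤ) ∣ P.a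
  · -- q ∣ a
    have hqb : ¬ (q : ℤ) ∣ P.b := not_dvd_of_gcd_eq_one hq P.hgcdab hqa
    have hqc : ¬ (q : ℤ) ∣ P.c := not_dvd_of_gcd_eq_one hq P.hgcdac hqa
    refine smul_eq_of_roots P.freyCurve A hσ 0 (-(b ^ p) / 4) (a ^ p / 4) a (map_zero σ) (hσint _)
      ?_ ?_ ?_ ?_ ?_ (hvle _) ?_ h2 P.hp_odd hpv ?_ x hx
    · rw [hb₂]; ring
    · rw [hb₄]; ring
    · rw [hb₆]; ring
    · have : 4 * (-(b ^ p) / 4 - 0) = -(b ^ p) := by ring
      rw [this, Valuation.map_neg, map_pow, hv1 _ hqb, one_pow]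
    · have : 4 * (a ^ p / 4 - 0) = a ^ p := by ring
      rw [this]; exact pow_ne_zero _ ha0
    · have : 4 * (-(b ^ p) / 4 - 0) - 4 * (a ^ p / 4 - 0) = -(c ^ p) := by
        rw [← hFLT]; ring
      rw [this, Valuation.map_neg, map_pow, hv1 _ hqc, one_pow]
    · have : 4 * (a ^ p / 4 - 0) = a ^ p := by ring
      rw [this, map_pow]
  by_cases hqb : (q : ℤ) ∣ P.b
  · -- q ∣ b
    have hqc : ¬ (q : ℤ) ∣ P.c := not_dvd_of_gcd_eq_one hq P.hgcdbc hqb
    refine smul_eq_of_roots P.freyCurve A hσ 0 (a ^ p / 4) (-(b ^ p) / 4) b (map_zero σ) (hσint _)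
      ?_ ?_ ?_ ?_ ?_ (hvle _) ?_ h2 P.hp_odd hpv ?_ x hx
    · rw [hb₂]; ring
    · rw [hb₄]; ring
    · rw [hb₆]; ring
    · have : 4 * (a ^ p / 4 - 0) = a ^ p := by ring
      rw [this, map_pow, hv1 _ hqa, one_pow]
    · have : 4 * (-(b ^ p) / 4 - 0) = -(b ^ p) := by ring
      rw [this]; exact neg_ne_zero.mpr (pow_ne_zero _ hb0)
    · have : 4 * (a ^ p / 4 - 0) - 4 * (-(b ^ p) / 4 - 0) = c ^ p := by
        rw [← hFLT]; ring
      rw [this, map_pow, hv1 _ hqc, one_pow]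
    · have : 4 * (-(b ^ p) / 4 - 0) = -(b ^ p) := by ring
      rw [this, Valuation.map_neg, map_pow]
  by_cases hqc : (q : ℤ) ∣ P.c
  · -- q ∣ c
    have hσr : σ (a ^ p / 4) = a ^ p / 4 := by
      rw [map_div₀, map_pow, hσint, map_ofNat]
    refine smul_eq_of_roots P.freyCurve A hσ (a ^ p / 4) 0 (-(b ^ p) / 4) c hσr (hσint _)
      ?_ ?_ ?_ ?_ ?_ (hvle _) ?_ h2 P.hp_odd hpv ?_ x hx
    · rw [hb₂]; ring
    · rw [hb₄]; ring
    · rw [hb₆]; ring
    · have : 4 * (0 - a ^ p / 4) = -(a ^ p) := by ring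
      rw [this, Valuation.map_neg, map_pow, hv1 _ hqa, one_pow]
    · have : 4 * (-(b ^ p) / 4 - a ^ p / 4) = -(c ^ p) := by
        rw [← hFLT]; ring
      rw [this]; exact neg_ne_zero.mpr (pow_ne_zero _ hc0)
    · have : 4 * (0 - a ^ p / 4) - 4 * (-(b ^ p) / 4 - a ^ p / 4) = b ^ p := by ring
      rw [this, map_pow, hv1 _ hqb, one_pow]
    · have : 4 * (-(b ^ p) / 4 - a ^ p / 4) = -(c ^ p) := by
        rw [← hFLT]; ring
      rw [this, Valuation.map_neg, map_pow]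
  · -- good reduction
    refine smul_eq_of_roots P.freyCurve A hσ 0 (a ^ p / 4) (-(b ^ p) / 4) 1 (map_zero σ) (map_one σ)
      ?_ ?_ ?_ ?_ ?_ (by simp) ?_ h2 P.hp_odd hpv ?_ x hx
    · rw [hb₂]; ring
    · rw [hb₄]; ring
    · rw [hb₆]; ring
    · have : 4 * (a ^ p / 4 - 0) = a ^ p := by ring
      rw [this, map_pow, hv1 _ hqa, one_pow]
    · have : 4 * (-(b ^ p) / 4 - 0) = -(b ^ p) := by ring
      rw [this]; exact neg_ne_zero.mpr (pow_ne_zero _ hb0)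
    · have : 4 * (a ^ p / 4 - 0) - 4 * (-(b ^ p) / 4 - 0) = c ^ p := by
        rw [← hFLT]; ring
      rw [this, map_pow, hv1 _ hqc, one_pow]
    · have : 4 * (-(b ^ p) / 4 - 0) = -(b ^ p) := by ring
      rw [this, Valuation.map_neg, map_pow, hv1 _ hqb, map_one]

end Fermat.Agent.S05
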