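import Mathlib

/-!
# S05: abstract interface for the group of points of `Y^2 = X^3 + a X^2 + b X`

`Model K a b G` packages an abelian group `G` whose nonzero elements carry coordinates
`(X, Y)` on the curve `Y^2 = X^3 + a X^2 + b X`, together with the chord/tangent (Vieta)
relations for three points summing to zero.  All valuation-theoretic arguments of S05 are
carried out on top of this interface; the interface itself is instantiated once, from Mathlib's
`WeierstrassCurve.Affine.Point`.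
-/

namespace Fermat.Agent.S05

/-- An abelian group `G` of points on `Y^2 = X^3 + a X^2 + b X` (with `0` the point at infinity),
with the Vieta relations for collinear triples. -/
structure Model (K : Type*) [Field K] (a b : K) (G : Type*) [AddCommGroup G] where
  /-- the `X` coordinate (junk at `0`) -/
  X : G → K
  /-- the `Y` coordinate (junk at `0`) -/
  Y : G → K
  eqn : ∀ P : G, P ≠ 0 → Y P ^ 2 = X P ^ 3 + a * X P ^ 2 + b * X P
  X_neg : ∀ P : G, P ≠ 0 → X (-P) = X P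
  Y_neg : ∀ P : G, P ≠ 0 → Y (-P) = -Y P
  ext : ∀ P Q : G, P ≠ 0 → Q ≠ 0 → X P = X Q → Y P = Y Q → P = Q
  exists_two_torsion : ∀ x : K, x ^ 3 + a * x ^ 2 + b * x = 0 → ∃ T : G, T ≠ 0 ∧ X T = x ∧ Y T = 0
  line : ∀ P₁ P₂ P₃ : G, P₁ ≠ 0 → P₂ ≠ 0 → P₃ ≠ 0 → P₁ + P₂ + P₃ = 0 →
    ∃ l n : K, Y P₁ = l * X P₁ + n ∧ Y P₂ = l * X P₂ + n ∧ Y P₃ = l * X P₃ + n ∧
      X P₁ + X P₂ + X P₃ = l ^ 2 - a ∧
      X P₁ * X P₂ + X P₁ * X P₃ + X P₂ * X P₃ = b - 2 * l * n ∧
      X P₁ * X P₂ * X P₃ = n ^ 2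

namespace Model

variable {K : Type*} [Field K] {a b : K} {G : Type*} [AddCommGroup G] (M : Model K a b G)

include M in
/-- A nonzero point with `Y = 0` is killed by `2`. -/
theorem two_nsmul_eq_zero_of_Y_eq_zero {T : G} (hT : T ≠ 0) (hY : M.Y T = 0) : 2 • T = 0 := by
  have h : -T = T := by
    refine M.ext _ _ (neg_ne_zero.mpr hT) hT (M.X_neg T hT) ?_
    rw [M.Y_neg T hT, hY, neg_zero]
  calc 2 • T = T + T := two_nsmul T
    _ = -T + T := by rw [h]
    _ = 0 := neg_add_cancel T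

include M in
/-- A nonzero point killed by `2` has `Y = 0` (characteristic `≠ 2`). -/
theorem Y_eq_zero_of_two_nsmul_eq_zero (h2 : (2 : K) ≠ 0) {T : G} (hT : T ≠ 0)
    (h : 2 • T = 0) : M.Y T = 0 := by
  have h' : -T = T := by
    rw [two_nsmul] at h
    exact neg_eq_of_add_eq_zero_left h
  have hy := M.Y_neg T hT
  rw [h'] at hy
  have : (2 : K) * M.Y T = 0 := by linear_combination hy
  exact (mul_eq_zero.mp this).resolve_left h2

/-- The chord/tangent relations for `P`, `Q`, `P + Q`, all nonzero. -/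
theorem line_add {P Q : G} (hP : P ≠ 0) (hQ : Q ≠ 0) (hPQ : P + Q ≠ 0) :
    ∃ l n : K, M.Y P = l * M.X P + n ∧ M.Y Q = l * M.X Q + n ∧
      -M.Y (P + Q) = l * M.X (P + Q) + n ∧
      M.X P + M.X Q + M.X (P + Q) = l ^ 2 - a ∧
      M.X P * M.X Q + M.X P * M.X (P + Q) + M.X Q * M.X (P + Q) = b - 2 * l * n ∧
      M.X P * M.X Q * M.X (P + Q) = n ^ 2 := by
  have h := M.line P Q (-(P + Q)) hP hQ (neg_ne_zero.mpr hPQ) (add_neg_cancel _)
  rwa [M.X_neg _ hPQ, M.Y_neg _ hPQ] at h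

end Model

end Fermat.Agent.S05
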